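import Fermat.Agent.RT.Pseudo
import Fermat.Agent.GaloisBasic.CharpolyDensity
import Mathlib.RingTheory.Filtration

/-!
# The trace of a representation satisfying quadratic relations at Frobenius elements

If `ρ g + d g ρ g⁻¹` lies in a closed commutative subalgebra for Frobenius elements, it does so
for all `g`, and is the trace of a pseudo-representation of dimension two.
-/

set_option autoImplicit false

noncomputable section

open FermatAgent.GaloisBasic (Qbar GQ exists_frobenius_pow_congr)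

namespace FermatAgent.HM

section Algebra

variable {G A : Type*} [Group G] [Ring A]

/-- `ρ g + d g ρ g⁻¹`. -/
def traceFun (ρ d : G →* A) (g : G) : A := ρ g + d g * ρ g⁻¹

variable {ρ d : G →* A} (hd : ∀ g a, Commute (d g) a)
include hd

omit hd in
theorem traceFun_one : traceFun ρ d 1 = 2 := by
  simp [traceFun, one_add_one_eq_two]

/-- The identity of traces, given commutation. -/
theorem traceFun_mul {g h : G} (hc : Commute (traceFun ρ d h) (ρ g⁻¹)) :
    traceFun ρ d (g * h) + d h * traceFun ρ d (g * h⁻¹) = traceFun ρ d g * traceFun ρ d h := by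
  have hdd : d h * d h⁻¹ = 1 := by rw [← map_mul, mul_inv_cancel, map_one]
  have c1 : ∀ x, d g * x = x * d g := fun x => (hd g x).eq
  have c2 : ∀ x, d h * x = x * d h := fun x => (hd h x).eq
  have e := hc.eq
  simp only [traceFun, mul_inv_rev, inv_inv, map_mul] at e ⊢
  have e1 : d g * d h * (ρ h⁻¹ * ρ g⁻¹) + d h * (d g * d h⁻¹ * (ρ h * ρ g⁻¹)) =
      d g * ((ρ h + d h * ρ h⁻¹) * ρ g⁻¹) := by
    rw [← mul_assoc (d h), ← mul_assoc (d h), c2 (d g), mul_assoc (d g) (d h) (d h⁻¹), hdd]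
    noncomm_ring
  have e2 : d h * (ρ g * ρ h⁻¹) = ρ g * (d h * ρ h⁻¹) := by
    rw [← mul_assoc, c2, mul_assoc]
  calc _ = (ρ g * ρ h + ρ g * (d h * ρ h⁻¹)) +
        (d g * d h * (ρ h⁻¹ * ρ g⁻¹) + d h * (d g * d h⁻¹ * (ρ h * ρ g⁻¹))) := by
          rw [mul_add, e2]; abel
    _ = _ := by rw [e1, e]; noncomm_ring

variable {R : Type*} [CommRing R] [Algebra R A] (T : Subalgebra R A)

/-- Traces of powers. -/
theorem traceFun_pow_mem {g : G} (ht : traceFun ρ d g ∈ T) (hdT : d g ∈ T) (j : ℕ) :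
    traceFun ρ d (g ^ j) ∈ T := by
  suffices H : ∀ j, traceFun ρ d (g ^ j) ∈ T ∧ traceFun ρ d (g ^ (j + 1)) ∈ T from (H j).1
  intro j
  induction j with
  | zero =>
    refine ⟨?_, by rwa [zero_add, pow_one]⟩
    rw [pow_zero, traceFun_one, ← one_add_one_eq_two]
    exact add_mem T.one_mem T.one_mem
  | succ j ih =>
    refine ⟨ih.2, ?_⟩
    have hc : Commute (traceFun ρ d g) (ρ (g ^ (j + 1))⁻¹) := by
      have h1 : Commute g (g ^ (j + 1))⁻¹ := ((Commute.refl g).pow_right _).inv_right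
      exact (h1.map ρ).add_left ((hd g _).mul_left ((h1.inv_left).map ρ))
    have h := traceFun_mul hd hc
    rw [← pow_succ, show g ^ (j + 1) * g⁻¹ = g ^ j by rw [pow_succ, mul_inv_cancel_right]] at h
    rw [eq_sub_of_add_eq h]
    exact T.sub_mem (T.mul_mem ih.2 ht) (T.mul_mem hdT ih.1)

end Algebra

variable {R A : Type*} [CommRing R] [IsLocalRing R] [IsNoetherianRing R] [Ring A] [Algebra R A]
  [Module.Finite R A]

/-- **The trace takes values in the Hecke algebra.** If `ρ g + d g ρ g⁻¹` lies in `T` at Frobenius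
elements outside a finite set and `ρ`, `d` are continuous for the `π`-adic topology, then it lies
in `T` for all `g`: any `g` is congruent to a power of a Frobenius element, and `T` is closed by
Krull's intersection theorem. -/
theorem traceFun_mem {ρ d : GQ →* A} (hd : ∀ g a, Commute (d g) a) (T : Subalgebra R A)
    (hdT : ∀ g, d g ∈ T) {π : R} (hπ : π ∈ IsLocalRing.maximalIdeal R) (S : Finset ℕ)
    (hfrob : ∀ q : ℕ, q.Prime → q ∉ S → ∀ P : ValuationSubring Qbar, P.LiesOverPrime q →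
      ∀ σ : GQ, P.IsFrobeniusAt σ q → traceFun ρ d σ ∈ T)
    (hcont : ∀ k : ℕ, ∃ L : IntermediateField ℚ Qbar, FiniteDimensional ℚ L ∧
      ∀ τ ∈ L.fixingSubgroup, (∃ f, ρ τ = 1 + π ^ k • f) ∧ ∃ f, d τ = 1 + π ^ k • f)
    (g : GQ) : traceFun ρ d g ∈ T := by
  set T' : Submodule R A := Subalgebra.toSubmodule T
  have hmem : ∀ k : ℕ, Submodule.Quotient.mk (p := T') (traceFun ρ d g) ∈
      IsLocalRing.maximalIdeal R ^ k • (⊤ : Submodule R (A ⧸ T')) := by
    intro k
    obtain ⟨L, hL, hc⟩ := hcont k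
    have := hL
    obtain ⟨q, P, σ, j, -, hq, hqS, hP, hσ, -, hτ, -⟩ := exists_frobenius_pow_congr L g S
    set τ := (σ ^ j)⁻¹ * g
    obtain ⟨⟨f1, hf1⟩, f2, hf2⟩ := hc τ hτ
    obtain ⟨⟨f3, hf3⟩, -⟩ := hc τ⁻¹ (inv_mem hτ)
    have hg : g = σ ^ j * τ := by simp [τ]
    have e1 : ρ g - ρ (σ ^ j) = π ^ k • (ρ (σ ^ j) * f1) := by
      rw [hg, map_mul, hf1, mul_add, mul_one, add_sub_cancel_left, mul_smul_comm]
    have e2 : ρ g⁻¹ - ρ (σ ^ j)⁻¹ = π ^ k • (f3 * ρ (σ ^ j)⁻¹) := by
      rw [hg, mul_inv_rev, map_mul, hf3, add_mul, one_mul, add_sub_cancel_left, smul_mul_assoc]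
    have e3 : d g - d (σ ^ j) = π ^ k • (d (σ ^ j) * f2) := by
      rw [hg, map_mul, hf2, mul_add, mul_one, add_sub_cancel_left, mul_smul_comm]
    have e : traceFun ρ d g - traceFun ρ d (σ ^ j) = π ^ k • (ρ (σ ^ j) * f1 +
        d (σ ^ j) * (f3 * ρ (σ ^ j)⁻¹) + d (σ ^ j) * f2 * ρ g⁻¹) := by
      calc _ = (ρ g - ρ (σ ^ j)) + d (σ ^ j) * (ρ g⁻¹ - ρ (σ ^ j)⁻¹) +
            (d g - d (σ ^ j)) * ρ g⁻¹ := by simp only [traceFun]; noncomm_ring
        _ = _ := by
          rw [e1, e2, e3, mul_smul_comm, smul_mul_assoc, smul_add, smul_add]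
    have hj := traceFun_pow_mem hd T (hfrob q hq hqS P hP σ hσ) (hdT σ) j
    rw [show (Submodule.Quotient.mk (p := T') (traceFun ρ d g)) = π ^ k •
      Submodule.Quotient.mk (p := T') (ρ (σ ^ j) * f1 + d (σ ^ j) * (f3 * ρ (σ ^ j)⁻¹) +
        d (σ ^ j) * f2 * ρ g⁻¹) from by
      rw [← Submodule.Quotient.mk_smul, ← e, Submodule.Quotient.mk_sub,
        (Submodule.Quotient.mk_eq_zero T').mpr hj, sub_zero]]
    exact Submodule.smul_mem_smul (Ideal.pow_mem_pow hπ k) Submodule.mem_top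
  have h : Submodule.Quotient.mk (p := T') (traceFun ρ d g) = 0 := by
    rw [← Submodule.mem_bot R, ← Ideal.iInf_pow_smul_eq_bot_of_isLocalRing
      (M := A ⧸ T') (IsLocalRing.maximalIdeal R) (IsLocalRing.maximalIdeal.isMaximal R).ne_top,
      Submodule.mem_iInf]
    exact hmem
  exact (Submodule.Quotient.mk_eq_zero T').mp h

section Pseudo

variable {G A₀ T : Type} [Group G] [Ring A₀] [CommRing T]

/-- The pseudo-representation with values in a commutative ring mapping injectively to `A₀`. -/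
def traceDetOf {ρ : G →* A₀} {dT : G →* T} (i : T →+* A₀) (hi : Function.Injective i)
    (hd : ∀ g a, Commute (i (dT g)) a) (hT : ∀ x g, Commute (i x) (ρ g)) (t : G → T)
    (ht : ∀ g, i (t g) = traceFun ρ (i.toMonoidHom.comp dT) g) : RT.TraceDet G T where
  t := t
  d := dT
  t_one := hi (by rw [ht, traceFun_one, map_ofNat])
  t_mul g h := hi (by
    simp only [map_add, map_mul, ht]
    exact traceFun_mul (d := i.toMonoidHom.comp dT) hd (by rw [← ht]; exact hT _ _))

end Pseudo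

end FermatAgent.HM
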