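import Fermat.Agent.HM.Gal.ParAlg
import Fermat.Agent.HM.Gal.TraceDet
import Fermat.Agent.ES.Tate.Cyclo
import Fermat.Agent.HM.H1.Finite
import Fermat.Prelude.Def_ExtCitation_AdmissibleExtension

/-!
# The Galois action on the auxiliary Hecke modules and its trace

The parabolic homomorphisms of `Γ_H` with coefficients in a `ℤ_p`-algebra `O` carry a continuous
action `ρ` of `Gal(Q̄/Q)` commuting with the Hecke and diamond operators, and the determinant
character `d = χ_p · ⟨χ_N⟩` with values in the diamond algebra. On the localised Hecke module,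
`ρ g + d g ρ g⁻¹` is a Hecke operator in the good variables for every `g`; it is `T_ℓ` at a
Frobenius element over `ℓ`. This gives a pseudo-representation of dimension two with values in
the good Hecke algebra, of trace zero at complex conjugation (`heckeTraceDet`).
-/

set_option autoImplicit false

noncomputable section

open scoped MatrixGroups
open CongruenceSubgroup ModularCurve.Period MvPolynomial
open FermatAgent.ES (GQ)

namespace FermatAgent.HM

/-- The cyclotomic character modulo `N`. -/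
def cycloN (N : ℕ) [NeZero N] : GQ →* (ZMod N)ˣ :=
  haveI : NeZero ((N : ℕ) : AlgebraicClosure ℚ) := ⟨Nat.cast_ne_zero.mpr (NeZero.ne N)⟩
  (modularCyclotomicCharacter (AlgebraicClosure ℚ)
    (IsAlgClosed.card_rootsOfUnity_eq (AlgebraicClosure ℚ) N)).comp
    { toFun := fun g : GQ => g.toRingEquiv
      map_one' := rfl
      map_mul' := fun _ _ => rfl }

/-- The cyclotomic character modulo `N` at `g` is the exponent by which `g` moves the `N`-th
roots of unity. -/
theorem cycloN_eq {N : ℕ} [NeZero N] {g : GQ} {u : (ZMod N)ˣ}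
    (h : ∀ t : AlgebraicClosure ℚ, t ^ N = 1 → g t = t ^ (u : ZMod N).val) : cycloN N g = u :=
  haveI : NeZero ((N : ℕ) : AlgebraicClosure ℚ) := ⟨Nat.cast_ne_zero.mpr (NeZero.ne N)⟩
  Units.ext (modularCyclotomicCharacter.unique (AlgebraicClosure ℚ)
    (IsAlgClosed.card_rootsOfUnity_eq (AlgebraicClosure ℚ) N) g.toRingEquiv fun t ht =>
      h _ (by rw [← Units.val_pow_eq_pow_val, (mem_rootsOfUnity N t).1 ht, Units.val_one])).symm

/-- The cyclotomic character of complex conjugation. -/
theorem cycloN_complexConjugation (N : ℕ) [NeZero N] : cycloN N complexConjugation = -1 := by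
  refine cycloN_eq fun t ht => ?_
  obtain ⟨n, rfl⟩ := Nat.exists_eq_succ_of_ne_zero (NeZero.ne N)
  rw [ES.complexConjugation_of_pow_eq_one ht, Units.val_neg, Units.val_one, ZMod.val_neg_one,
    Nat.succ_sub_one]

/-- The cyclotomic character modulo `N` is `ℓ` at a Frobenius element over `ℓ ∤ N`. -/
theorem cycloN_frobenius {N : ℕ} [NeZero N] {ℓ : ℕ} (hℓ : ℓ.Prime) (hℓN : ¬ ℓ ∣ N)
    {A : ValuationSubring (AlgebraicClosure ℚ)} (hA : A.LiesOverPrime ℓ) {g : GQ}
    (hg : A.IsFrobeniusAt g ℓ) :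
    cycloN N g = ZMod.unitOfCoprime ℓ ((hℓ.coprime_iff_not_dvd).mpr hℓN) := by
  refine cycloN_eq fun t ht => ?_
  rw [Mazur.frobenius_rootsOfUnity hℓ hA hℓN (NeZero.ne N) hg ht, ZMod.coe_unitOfCoprime,
    ZMod.val_natCast]
  exact pow_eq_pow_mod _ ht

/-- The cyclotomic character modulo `N` is trivial on the Galois group of a finite extension of
`ℚ` (the field of `N`-th roots of unity). -/
theorem exists_level_cycloN (N : ℕ) [NeZero N] :
    ∃ L : IntermediateField ℚ (AlgebraicClosure ℚ), FiniteDimensional ℚ L ∧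
      ∀ g : GQ, (∀ x ∈ L, g x = x) → cycloN N g = 1 := by
  have : NeZero ((N : ℕ) : AlgebraicClosure ℚ) := ⟨Nat.cast_ne_zero.mpr (NeZero.ne N)⟩
  obtain ⟨ζ, hζ⟩ := HasEnoughRootsOfUnity.exists_primitiveRoot (AlgebraicClosure ℚ) N
  refine ⟨IntermediateField.adjoin ℚ {ζ},
    IntermediateField.adjoin.finiteDimensional (Algebra.IsIntegral.isIntegral ζ), fun g hg => ?_⟩
  refine cycloN_eq fun t ht => ?_
  obtain ⟨i, -, rfl⟩ := hζ.eq_pow_of_pow_eq_one ht
  rw [map_pow, hg ζ (IntermediateField.mem_adjoin_simple_self ℚ ζ), Units.val_one,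
    ZMod.val_one_eq_one_mod, ← pow_eq_pow_mod _ ht, pow_one]

/-- A ring map on a translate of one by a multiple of a power. -/
theorem map_one_add_smul {R A B : Type*} [CommSemiring R] [Semiring A] [Algebra R A] [Semiring B]
    (φ : A →+* B)
    (n k : ℕ) (f : A) : φ (1 + (n : R) ^ k • f) = 1 + n ^ k • φ f := by
  rw [← Nat.cast_pow, Nat.cast_smul_eq_nsmul, map_add, map_one, map_nsmul]

/-- A ring map on a translate of one by a natural multiple of a power. -/
theorem map_one_add_nsmul {A B : Type*} [Semiring A] [Semiring B] (φ : A →+* B) (n k : ℕ) (f : A) :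
    φ (1 + n ^ k • f) = 1 + n ^ k • φ f := by
  rw [map_add, map_one, map_nsmul]

section Main

variable (p : ℕ) [hp : Fact p.Prime] (O : Type) [CommRing O] [Algebra ℤ_[p] O] [IsAddTorsionFree O]
variable {Δ : Type} [CommGroup Δ] [Finite Δ] {N L M : ℕ} [NeZero M] [NeZero N]
variable {δ : (ZMod N)ˣ →* Δ} {hNM : N ∣ M} {ι : Type} {pr : ι → HPrime L}
variable (hδ : Function.Surjective δ) (hneg : δ (-1) = 1)

variable (δ) in
/-- The determinant character: the cyclotomic character times the diamond character. -/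
def detChar : GQ →* MonoidAlgebra O Δ where
  toFun g := MonoidAlgebra.single (δ (cycloN N g)) (algebraMap ℤ_[p] O (ES.padCyclo p g))
  map_one' := by simp [MonoidAlgebra.one_def]
  map_mul' g h := by simp [MonoidAlgebra.single_mul_single]

omit [NeZero N] in
theorem galParO_mem (g : GQ) :
    galParO (hNM := hNM) p hneg O g ∈ parAlg O δ hNM pr hδ :=
  mem_parAlg_of_commute (galParO_conj p hneg O g) fun i r E h => by
    have : Fact (pr i).1.1.Prime := ⟨(pr i).1.2⟩
    exact h.galParO_trans p hneg O g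

/-- The Galois action on the parabolic Hecke module. -/
def galParAlg : GQ →* parAlg O δ hNM pr hδ where
  toFun g := ⟨galParO p hneg O g, galParO_mem p O hδ hneg g⟩
  map_one' := Subtype.ext (map_one (galParO p hneg O))
  map_mul' g h := Subtype.ext (map_mul (galParO p hneg O) g h)

/-- An element of given diamond class. -/
def classRep (u : Δ) : Gamma0 M := (gammaClass_surjective δ hNM hδ u⁻¹).choose

omit [NeZero N] [Finite Δ] in
/-- The chosen representative of `u ∈ Δ` has diamond class `u⁻¹`. -/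
theorem gammaClass_classRep (u : Δ) : gammaClass δ hNM (classRep (hNM := hNM) hδ u) = u⁻¹ :=
  (gammaClass_surjective δ hNM hδ u⁻¹).choose_spec

/-- The determinant among the equivariant endomorphisms. -/
def detParAlg : GQ →* parAlg O δ hNM pr hδ where
  toFun g := ⟨_, smul_conjParLin_mem (δ (cycloN N g)) (algebraMap ℤ_[p] O (ES.padCyclo p g))
    (gammaClass_classRep hδ _)⟩
  map_one' := parAlgHom_injective (by
    refine (parAlgHom_smul_conjParLin _ _ (gammaClass_classRep hδ _)).trans ?_
    rw [RingHom.map_one (parAlgHom (hδ := hδ))]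
    simp [← MonoidAlgebra.one_def])
  map_mul' g h := parAlgHom_injective (by
    rw [RingHom.map_mul (parAlgHom (hδ := hδ))]
    refine (parAlgHom_smul_conjParLin _ _ (gammaClass_classRep hδ _)).trans
      (Eq.trans ?_ (congrArg₂ (· * ·) (parAlgHom_smul_conjParLin _ _ (gammaClass_classRep hδ _))
        (parAlgHom_smul_conjParLin _ _ (gammaClass_classRep hδ _))).symm)
    rw [← map_mul, ← map_mul, MonoidAlgebra.single_mul_single, ← map_mul, ← map_mul, ← map_mul,
      ← map_mul])

omit [IsAddTorsionFree O] in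
/-- On the parabolic Hecke module the determinant endomorphism is the scalar `detChar g`. -/
theorem parAlgHom_detParAlg (g : GQ) :
    parAlgHom (detParAlg (hNM := hNM) (pr := pr) p O hδ g) =
      algebraMap (MvPolynomial ι (MonoidAlgebra O Δ)) _ (C (detChar p O δ g)) :=
  parAlgHom_smul_conjParLin _ _ (gammaClass_classRep hδ _)

variable (good : Set ι)

/-- The operators in the good variables. -/
def goodAlg : Subalgebra O (parAlg O δ hNM pr hδ) where
  carrier := {f | ∃ P : MvPolynomial good (MonoidAlgebra O Δ),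
    parAlgHom f = algebraMap (MvPolynomial ι (MonoidAlgebra O Δ)) _ (rename Subtype.val P)}
  mul_mem' := by
    rintro f f' ⟨P, hP⟩ ⟨P', hP'⟩
    exact ⟨P * P', by rw [RingHom.map_mul, hP, hP', map_mul (rename _), RingHom.map_mul]⟩
  add_mem' := by
    rintro f f' ⟨P, hP⟩ ⟨P', hP'⟩
    exact ⟨P + P', by rw [RingHom.map_add, hP, hP', map_add (rename _), RingHom.map_add]⟩
  algebraMap_mem' a := ⟨C (MonoidAlgebra.single (1 : Δ) a), by
    refine parAlgHom_eq fun z => ?_
    simp only [rename_C, Module.algebraMap_end_apply, Submodule.coe_smul, C_smul_eq,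
      shapiroHecke_scalar]
    rw [Subalgebra.coe_algebraMap, Module.algebraMap_end_apply, Submodule.coe_smul]⟩

variable [IsNoetherianRing O]

instance moduleFinite_parAlg : Module.Finite O (parAlg O δ hNM pr hδ) :=
  haveI : Module.Finite O (parabolicHoms O (gammaH δ hNM) O) :=
    Module.Finite.equiv (Period.parabolicCoords (gammaH δ hNM) O O).symm
  moduleFinite_subalgebra_end _

omit [IsNoetherianRing O] in
/-- For every `k`, on the Galois group of some finite extension of `ℚ` both the Galois action and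
the determinant are congruent to `1` modulo `p ^ k` inside the equivariant endomorphisms. -/
theorem exists_congr_one (k : ℕ) :
    ∃ L₀ : IntermediateField ℚ (AlgebraicClosure ℚ), FiniteDimensional ℚ L₀ ∧
      ∀ τ ∈ L₀.fixingSubgroup,
        (∃ f, galParAlg (hNM := hNM) (pr := pr) p O hδ hneg τ = 1 + (p : O) ^ k • f) ∧
          ∃ f, detParAlg (hNM := hNM) (pr := pr) p O hδ τ = 1 + (p : O) ^ k • f := by
  suffices key : ∃ L₀ : IntermediateField ℚ (AlgebraicClosure ℚ), FiniteDimensional ℚ L₀ ∧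
      ∀ τ ∈ L₀.fixingSubgroup,
        (∃ F ∈ parAlg O δ hNM pr hδ, galParO p hneg O τ = 1 + (p : O) ^ k • F) ∧
          ∃ F ∈ parAlg O δ hNM pr hδ, algebraMap ℤ_[p] O (ES.padCyclo p τ) •
            (conjParLin (classRep hδ (δ (cycloN N τ))) :
              Module.End O (parabolicHoms O (gammaH δ hNM) O)) = 1 + (p : O) ^ k • F from
    key.imp fun _ h => ⟨h.1, fun τ hτ =>
      ⟨(h.2 τ hτ).1.elim fun F hF => ⟨⟨F, hF.1⟩, Subtype.ext hF.2⟩,
      (h.2 τ hτ).2.elim fun F hF => ⟨⟨F, hF.1⟩, Subtype.ext hF.2⟩⟩⟩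
  obtain ⟨L₁, hL₁, h₁⟩ := galParLin_continuous (hNM := hNM) p hneg k
  obtain ⟨L₂, hL₂, h₂⟩ := ES.padCyclo_continuous p k
  obtain ⟨L₃, hL₃, h₃⟩ := exists_level_cycloN N
  have := hL₁; have := hL₂; have := hL₃
  refine ⟨L₁ ⊔ L₂ ⊔ L₃, inferInstance, fun τ hτ => ?_⟩
  have hfix : ∀ L' : IntermediateField ℚ (AlgebraicClosure ℚ), L' ≤ L₁ ⊔ L₂ ⊔ L₃ →
      ∀ x ∈ L', τ x = x := fun L' hle x hx =>
    (IntermediateField.mem_fixingSubgroup_iff _ _).mp hτ x (hle hx)
  obtain ⟨f, hf⟩ := h₁ τ (hfix L₁ (le_sup_left.trans le_sup_left))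
  obtain ⟨a, ha⟩ := h₂ τ (hfix L₂ (le_sup_right.trans le_sup_left))
  have hN := h₃ τ (hfix L₃ le_sup_right)
  constructor
  · set F := extPar (gammaH δ hNM) ℤ_[p] O f
    have hF : galParO p hneg O τ = 1 + (p : O) ^ k • F := by
      show extPar _ ℤ_[p] O (galParLin p hneg τ) = _
      simp only [hf, RingHom.map_add, RingHom.map_one, ← Nat.cast_pow, Nat.cast_smul_eq_nsmul,
        map_nsmul, F]
    have hcancel : ∀ X : Module.End O (parabolicHoms O (gammaH δ hNM) O),
        Commute (galParO p hneg O τ) X → Commute F X := fun X hX => by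
      rw [hF] at hX
      have h := hX.eq
      rw [add_mul, mul_add, one_mul, mul_one, smul_mul_assoc, mul_smul_comm] at h
      refine LinearMap.ext fun φ => Subtype.ext (AddMonoidHom.ext fun x => ?_)
      have h2 := congrArg (fun G => G.1 x) (LinearMap.congr_fun h φ)
      simp only [LinearMap.add_apply, LinearMap.smul_apply, Submodule.coe_add,
        AddMonoidHom.add_apply, add_right_inj, ← Nat.cast_pow,
        Nat.cast_smul_eq_nsmul] at h2
      exact nsmul_right_injective (pow_ne_zero k hp.out.ne_zero) h2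
    have hmem : F ∈ parAlg O δ hNM pr hδ :=
      mem_parAlg_of_commute (fun ε => hcancel _ (galParO_conj p hneg O τ ε)) fun i r E h => by
        have : Fact (pr i).1.1.Prime := ⟨(pr i).1.2⟩
        exact hcancel _ (h.galParO_trans p hneg O τ)
    exact ⟨F, hmem, hF⟩
  · refine ⟨algebraMap O _ (algebraMap ℤ_[p] O a), Subalgebra.algebraMap_mem _ _, ?_⟩
    have hc : (conjParLin (classRep (hNM := hNM) hδ (1 : Δ)) :
        Module.End O (parabolicHoms O (gammaH δ hNM) O)) = 1 := by
      rw [conjParLin_congr (ε' := 1) (by rw [gammaClass_classRep, inv_one, map_one])]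
      exact LinearMap.ext fun φ => Subtype.ext (AddMonoidHom.ext fun x => congrArg φ.1
        (Subtype.ext (by simp [conjGammaH, toGammaH])))
    rw [hN, map_one, hc, eq_add_of_sub_eq' ha]
    simp only [map_add, map_one, map_mul, map_pow, map_natCast, add_smul, one_smul, mul_smul]
    simp only [Algebra.algebraMap_eq_smul_one, smul_assoc, one_smul]

variable [IsLocalRing O] (hpO : (p : O) ∈ IsLocalRing.maximalIdeal O)

omit [IsNoetherianRing O] [IsLocalRing O] in
/-- At a Frobenius element over `ℓ ∤ p M`, the trace `ρ σ + d σ ρ σ⁻¹` is the Hecke operator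
`T_ℓ`. -/
theorem parAlgHom_traceFun_frobenius {i : ι} (hiM : ¬ ((pr i).1.1 : ℕ) ∣ M)
    (hip : (pr i).1.1 ≠ p) {A : ValuationSubring (AlgebraicClosure ℚ)}
    (hA : A.LiesOverPrime (pr i).1.1) {σ : GQ} (hσ : A.IsFrobeniusAt σ (pr i).1.1) :
    parAlgHom (traceFun (galParAlg (hNM := hNM) (pr := pr) p O hδ hneg)
      (detParAlg (hNM := hNM) (pr := pr) p O hδ) σ
        : parAlg O δ hNM pr hδ) =
      algebraMap (MvPolynomial ι (MonoidAlgebra O Δ)) _ (MvPolynomial.X i) := by
  have : Fact (pr i).1.1.Prime := ⟨(pr i).1.2⟩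
  obtain ⟨r, E, hsh, hspec⟩ := exists_transfer_mem O δ hNM pr hδ i
  have hqN : ¬ ((pr i).1.1 : ℕ) ∣ N := fun h => hiM (h.trans hNM)
  have hcls : gammaClass δ hNM (r (inftyIdx hiM)) =
      gammaClass δ hNM (classRep (hNM := hNM) hδ (δ (cycloN N σ))) := by
    rw [hsh.class_infty hiM (cycloN N σ) (by
      rw [cycloN_frobenius (pr i).1.2 hqN hA hσ, ZMod.coe_unitOfCoprime]), gammaClass_classRep]
  have h := hsh.transParLin_eq_galParO p hneg O hiM hip hA hσ
  refine parAlgHom_eq fun z => (hspec z).trans ?_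
  rw [h, conjParLin_congr hcls]
  refine congrArg (fun G : Module.End O (parabolicHoms O (gammaH δ hNM) O) =>
    (G ⟨_, z.2⟩).1) ?_
  simp only [traceFun, Subalgebra.coe_add, Subalgebra.coe_mul]
  refine congrArg (galParO p hneg O σ + ·) ?_
  show _ = (algebraMap ℤ_[p] O (ES.padCyclo p σ) • conjParLin (classRep hδ (δ (cycloN N σ))) :
    Module.End O (parabolicHoms O (gammaH δ hNM) O)) * galParO p hneg O σ⁻¹
  rw [ES.padCyclo_frobenius p (pr i).1.2 hip hA hσ, map_natCast, smul_mul_assoc]
  congr 1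
  exact (galParO_conj p hneg O σ⁻¹ _).eq

include hpO in
/-- The trace `ρ g + d g ρ g⁻¹` is, for every `g`, an operator in the good Hecke variables, as it
is one at Frobenius elements outside a finite set. -/
theorem traceFun_mem_goodAlg (S : Finset ℕ)
    (hgood : ∀ q : ℕ, q.Prime → q ∉ S → ∃ i ∈ good, ((pr i).1.1 : ℕ) = q) (g : GQ) :
    traceFun (galParAlg (hNM := hNM) (pr := pr) p O hδ hneg)
      (detParAlg (hNM := hNM) (pr := pr) p O hδ) g ∈
      goodAlg (hNM := hNM) (pr := pr) O hδ good := by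
  refine traceFun_mem (R := O) (ρ := galParAlg (hNM := hNM) (pr := pr) p O hδ hneg)
    (d := detParAlg (hNM := hNM) (pr := pr) p O hδ)
    (fun g f => commute_smul_conjParLin _ _ (gammaClass_classRep hδ _) f) _ (fun g => ?_) hpO
    (S ∪ M.primeFactors ∪ {p}) (fun q hq hqS A hA σ hσ => ?_)
    (exists_congr_one (hNM := hNM) (pr := pr) p O hδ hneg) g
  · exact ⟨C (detChar p O δ g), by rw [parAlgHom_detParAlg, rename_C]⟩
  · simp only [Finset.mem_union, Finset.mem_singleton, not_or, Nat.mem_primeFactors] at hqS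
    obtain ⟨i, hi, rfl⟩ := hgood q hq hqS.1.1
    refine ⟨MvPolynomial.X ⟨i, hi⟩, ?_⟩
    rw [parAlgHom_traceFun_frobenius p O hδ hneg
      (fun hd => hqS.1.2 ⟨hq, hd, NeZero.ne M⟩) hqS.2 hA hσ, rename_X]

variable (𝔪 : Ideal (MvPolynomial ι (MonoidAlgebra O Δ))) [𝔪.IsPrime]
variable (hloc : IsLocalizedModule 𝔪.primeCompl (parToLoc O δ hNM pr hδ 𝔪))

/-- The Galois representation on the localised module. -/
def galLoc : GQ →*
    Module.End (MvPolynomial ι (MonoidAlgebra O Δ)) (HeckeLoc pr hNM (diamondRep O δ) 𝔪) :=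
  ((parLocEnd hδ 𝔪 hloc).comp (parAlgHom (hδ := hδ))).toMonoidHom.comp
    (galParAlg (hNM := hNM) (pr := pr) p O hδ hneg)

section

omit [IsNoetherianRing O] [IsLocalRing O]

omit [IsAddTorsionFree O] [NeZero N] in
/-- The endomorphism of the localised module induced by a Hecke polynomial is that polynomial. -/
theorem parLocEnd_algebraMap (P : MvPolynomial ι (MonoidAlgebra O Δ)) :
    parLocEnd hδ 𝔪 hloc (algebraMap _ _ P) = algebraMap _ _ P :=
  haveI := hloc
  IsLocalizedModule.ext 𝔪.primeCompl (parToLoc O δ hNM pr hδ 𝔪)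
    (IsLocalizedModule.map_units (parToLoc O δ hNM pr hδ 𝔪))
    (LinearMap.ext fun z => by
      rw [LinearMap.comp_apply, parLocEnd_apply, Module.algebraMap_end_apply, map_smul]
      rfl)

theorem parLocEnd_traceFun (g : GQ) :
    parLocEnd hδ 𝔪 hloc (parAlgHom
        (traceFun (galParAlg (hNM := hNM) (pr := pr) p O hδ hneg)
          (detParAlg (hNM := hNM) (pr := pr) p O hδ) g)) =
      galLoc p O hδ hneg 𝔪 hloc g +
        algebraMap (MvPolynomial ι (MonoidAlgebra O Δ)) _ (C (detChar p O δ g)) *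
          galLoc p O hδ hneg 𝔪 hloc g⁻¹ := by
  simp only [traceFun, RingHom.map_add, RingHom.map_mul, parAlgHom_detParAlg, parLocEnd_algebraMap]
  rfl

/-- At a Frobenius element over a good prime: `T_ℓ = ρ(Frob) + det · ρ(Frob)⁻¹`. -/
theorem galLoc_frobenius {i : ι} (hiM : ¬ ((pr i).1.1 : ℕ) ∣ M) (hip : (pr i).1.1 ≠ p)
    {A : ValuationSubring (AlgebraicClosure ℚ)} (hA : A.LiesOverPrime (pr i).1.1) {σ : GQ}
    (hσ : A.IsFrobeniusAt σ (pr i).1.1) :
    galLoc p O hδ hneg 𝔪 hloc σ +
        algebraMap (MvPolynomial ι (MonoidAlgebra O Δ)) _ (C (detChar p O δ σ)) *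
          galLoc p O hδ hneg 𝔪 hloc σ⁻¹ =
      algebraMap (MvPolynomial ι (MonoidAlgebra O Δ)) _ (MvPolynomial.X i) := by
  rw [← parLocEnd_traceFun, parAlgHom_traceFun_frobenius p O hδ hneg hiM hip hA hσ,
    parLocEnd_algebraMap]

omit [NeZero N] in
/-- The Galois representation on the localised module is unramified outside `p M`. -/
theorem galLoc_inertia {ℓ : ℕ} (hℓ : ℓ.Prime) (hℓM : ¬ ℓ ∣ M) (hℓp : ℓ ≠ p)
    {A : ValuationSubring (AlgebraicClosure ℚ)} (hA : A.LiesOverPrime ℓ) {g : GQ}
    (hg : g ∈ A.inertiaSubgroupIn ℚ) : galLoc p O hδ hneg 𝔪 hloc g = 1 := by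
  have h : galParAlg (hNM := hNM) (pr := pr) p O hδ hneg g = 1 := Subtype.ext (by
    show extPar _ ℤ_[p] O (galParLin p hneg g) = _
    rw [galParLin_inertia p hneg hℓ hℓM hℓp hA hg, map_one]; rfl)
  show parLocEnd hδ 𝔪 hloc (parAlgHom (galParAlg (hNM := hNM) (pr := pr) p O hδ hneg g)) = 1
  rw [h, map_one, map_one]

/-- The Galois representation on the localised module is continuous. -/
theorem galLoc_continuous (k : ℕ) :
    ∃ L₀ : IntermediateField ℚ (AlgebraicClosure ℚ), FiniteDimensional ℚ L₀ ∧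
      ∀ τ ∈ L₀.fixingSubgroup, ∃ F, galLoc p O hδ hneg 𝔪 hloc τ = 1 + p ^ k • F := by
  obtain ⟨L₀, hL, h⟩ := exists_congr_one (hNM := hNM) (pr := pr) p O hδ hneg k
  refine ⟨L₀, hL, fun τ hτ => ?_⟩
  obtain ⟨⟨f, hf⟩, -⟩ := h τ hτ
  refine ⟨parLocEnd hδ 𝔪 hloc (parAlgHom f), ?_⟩
  show parLocEnd hδ 𝔪 hloc (parAlgHom (galParAlg (hNM := hNM) (pr := pr) p O hδ hneg τ)) = _
  rw [hf]
  exact (congrArg _ (map_one_add_smul parAlgHom p k f)).trans
    (map_one_add_nsmul (parLocEnd hδ 𝔪 hloc) p k _)

end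

include hpO in
/-- **The trace on the auxiliary module is a Hecke operator.** -/
theorem galLoc_trace (S : Finset ℕ)
    (hgood : ∀ q : ℕ, q.Prime → q ∉ S → ∃ i ∈ good, ((pr i).1.1 : ℕ) = q) (g : GQ) :
    ∃ P : MvPolynomial good (MonoidAlgebra O Δ),
      galLoc p O hδ hneg 𝔪 hloc g +
          algebraMap (MvPolynomial ι (MonoidAlgebra O Δ)) _ (C (detChar p O δ g)) *
            galLoc p O hδ hneg 𝔪 hloc g⁻¹ =
        algebraMap (MvPolynomial ι (MonoidAlgebra O Δ)) _ (rename Subtype.val P) := by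
  obtain ⟨P, hP⟩ := traceFun_mem_goodAlg (hNM := hNM) (pr := pr) p O hδ hneg good hpO S hgood g
  exact ⟨P, by rw [← parLocEnd_traceFun, hP, parLocEnd_algebraMap]⟩

/-- The Hecke algebra in the good variables acting on the localised module. -/
abbrev GoodHecke : Type :=
  MvPolynomial good (MonoidAlgebra O Δ) ⧸ RingHom.ker
    ((algebraMap (MvPolynomial ι (MonoidAlgebra O Δ))
      (Module.End (MvPolynomial ι (MonoidAlgebra O Δ)) (HeckeLoc pr hNM (diamondRep O δ) 𝔪))).comp
        (rename Subtype.val).toRingHom)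

omit [NeZero N] in
/-- The inclusion of the Hecke algebra in the endomorphisms. -/
def goodHeckeHom : GoodHecke (δ := δ) (hNM := hNM) (pr := pr) O good 𝔪 →+*
    Module.End (MvPolynomial ι (MonoidAlgebra O Δ)) (HeckeLoc pr hNM (diamondRep O δ) 𝔪) :=
  RingHom.kerLift _

omit [NeZero M] [NeZero N] [IsNoetherianRing O] [IsLocalRing O] [Finite Δ] [IsAddTorsionFree O] in
/-- The class of a polynomial in the good variables acts as the same polynomial in all
variables. -/
theorem goodHeckeHom_mk (P : MvPolynomial good (MonoidAlgebra O Δ)) :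
    goodHeckeHom (δ := δ) (hNM := hNM) (pr := pr) O good 𝔪 (Ideal.Quotient.mk _ P) =
      algebraMap (MvPolynomial ι (MonoidAlgebra O Δ)) _ (rename Subtype.val P) := rfl

include hpO in
/-- The trace `ρ g + d g ρ g⁻¹` comes from the good Hecke algebra. -/
theorem exists_goodHeckeHom_eq (S : Finset ℕ)
    (hgood : ∀ q : ℕ, q.Prime → q ∉ S → ∃ i ∈ good, ((pr i).1.1 : ℕ) = q) (g : GQ) :
    ∃ x : GoodHecke (δ := δ) (hNM := hNM) (pr := pr) O good 𝔪, goodHeckeHom O good 𝔪 x =
      galLoc p O hδ hneg 𝔪 hloc g +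
        algebraMap (MvPolynomial ι (MonoidAlgebra O Δ)) _ (C (detChar p O δ g)) *
          galLoc p O hδ hneg 𝔪 hloc g⁻¹ := by
  obtain ⟨P, hP⟩ := galLoc_trace p O hδ hneg good hpO 𝔪 hloc S hgood g
  exact ⟨Ideal.Quotient.mk _ P, hP.symm⟩

variable (S : Finset ℕ) (hgood : ∀ q : ℕ, q.Prime → q ∉ S → ∃ i ∈ good, ((pr i).1.1 : ℕ) = q)

include hpO in
/-- The trace and determinant with values in the good Hecke algebra. -/
def heckeTraceDet : RT.TraceDet GQ (GoodHecke (δ := δ) (hNM := hNM) (pr := pr) O good 𝔪) :=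
  traceDetOf (ρ := galLoc p O hδ hneg 𝔪 hloc)
    (dT := (Ideal.Quotient.mk _).toMonoidHom.comp
      ((C : MonoidAlgebra O Δ →+* MvPolynomial good (MonoidAlgebra O Δ)).toMonoidHom.comp
        (detChar p O δ)))
    (goodHeckeHom O good 𝔪) (RingHom.kerLift_injective _)
    (fun g a => Algebra.commutes (R := MvPolynomial ι (MonoidAlgebra O Δ)) _ a)
    (fun x g => by
      obtain ⟨P, rfl⟩ := Ideal.Quotient.mk_surjective x
      exact Algebra.commutes (R := MvPolynomial ι (MonoidAlgebra O Δ)) _ _)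
    (fun g => (exists_goodHeckeHom_eq p O hδ hneg good hpO 𝔪 hloc S hgood g).choose)
    fun g => (exists_goodHeckeHom_eq p O hδ hneg good hpO 𝔪 hloc S hgood g).choose_spec.trans (by
      show _ = galLoc p O hδ hneg 𝔪 hloc g + goodHeckeHom O good 𝔪
        (Ideal.Quotient.mk _ (C (detChar p O δ g))) * galLoc p O hδ hneg 𝔪 hloc g⁻¹
      rw [goodHeckeHom_mk, rename_C])

omit [NeZero M] [Finite Δ] [IsAddTorsionFree O] [IsNoetherianRing O] [IsLocalRing O] in
include hneg in
/-- The determinant is odd: its value at complex conjugation is `-1`. -/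
theorem detChar_complexConjugation : detChar p O δ complexConjugation = -1 := by
  show MonoidAlgebra.single (δ (cycloN N complexConjugation))
    (algebraMap ℤ_[p] O (ES.padCyclo p complexConjugation)) = -1
  rw [cycloN_complexConjugation, hneg, ES.padCyclo_complexConjugation, map_neg, map_one,
    MonoidAlgebra.single_neg, MonoidAlgebra.one_def]

include hpO in
/-- The trace of complex conjugation vanishes. -/
theorem heckeTraceDet_complexConjugation :
    (heckeTraceDet p O hδ hneg good hpO 𝔪 hloc S hgood).t complexConjugation = 0 := by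
  refine RingHom.kerLift_injective _ ?_
  refine (exists_goodHeckeHom_eq p O hδ hneg good hpO 𝔪 hloc S hgood
    complexConjugation).choose_spec.trans ?_
  rw [detChar_complexConjugation p O hneg, complexConjugation_inv, map_zero, map_neg, map_one,
    map_neg, map_one]
  refine LinearMap.ext fun x => ?_
  simp

end Main

end FermatAgent.HM
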