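import Fermat.Agent.HM.Gal.Padic

/-!
# Equivariant endomorphisms of parabolic homomorphisms and the parabolic Hecke module

An endomorphism of the parabolic homomorphisms of `Γ_H` commuting with the diamond conjugations
and the Hecke transfers is linear for the diamond Hecke polynomial algebra on the parabolic Hecke
module (`parAlg`, `parAlgHom`); diamond scalars are central among them.
-/

set_option autoImplicit false

noncomputable section

open scoped MatrixGroups
open CongruenceSubgroup ModularCurve.Period MvPolynomial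

namespace FermatAgent.HM

variable (O : Type*) [CommRing O] {Δ : Type*} [CommGroup Δ] [Finite Δ] {N L M : ℕ} [NeZero M]
variable (δ : (ZMod N)ˣ →* Δ) (hNM : N ∣ M) {ι : Type} (pr : ι → HPrime L)
variable (hδ : Function.Surjective δ)

/-- Endomorphisms of the parabolic homomorphisms coming from the parabolic Hecke module. -/
def parAlg : Subalgebra O (Module.End O (parabolicHoms O (gammaH δ hNM) O)) where
  carrier := {f | ∃ F : Module.End (MvPolynomial ι (MonoidAlgebra O Δ)) (parSub O δ hNM pr hδ),
    ∀ z, shapiroHecke O δ hNM pr hδ (F z : DiamondH1 O δ hNM pr) =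
      (f ⟨shapiroHecke O δ hNM pr hδ z.1, z.2⟩).1}
  mul_mem' {f f'} hf hf' := by
    obtain ⟨F, hF⟩ := hf
    obtain ⟨F', hF'⟩ := hf'
    refine ⟨F * F', fun z => ?_⟩
    rw [Module.End.mul_apply, hF, Module.End.mul_apply]
    exact congrArg (fun w => (f w).1) (Subtype.ext (hF' z))
  one_mem' := ⟨1, fun _ => rfl⟩
  add_mem' {f f'} hf hf' := by
    obtain ⟨F, hF⟩ := hf
    obtain ⟨F', hF'⟩ := hf'
    exact ⟨F + F', fun z => by
      rw [LinearMap.add_apply, Submodule.coe_add, map_add, hF, hF', LinearMap.add_apply,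
        Submodule.coe_add]⟩
  zero_mem' := ⟨0, fun z => by simp⟩
  algebraMap_mem' a := ⟨algebraMap _ _ (C (MonoidAlgebra.single (1 : Δ) a)), fun z => by
    rw [Module.algebraMap_end_apply, Submodule.coe_smul, C_smul_eq, shapiroHecke_scalar,
      Module.algebraMap_end_apply, Submodule.coe_smul]⟩

/-- The ring structure on the equivariant endomorphisms. -/
instance ringParAlg : Ring (parAlg O δ hNM pr hδ) :=
  @Subalgebra.toRing O (Module.End O (parabolicHoms O (gammaH δ hNM) O)) _ Module.End.instRing _ _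

variable {O δ hNM pr hδ}

theorem parEnd_ext {F F' : Module.End (MvPolynomial ι (MonoidAlgebra O Δ)) (parSub O δ hNM pr hδ)}
    (h : ∀ z, shapiroHecke O δ hNM pr hδ (F z : DiamondH1 O δ hNM pr) =
      shapiroHecke O δ hNM pr hδ (F' z : DiamondH1 O δ hNM pr)) : F = F' :=
  LinearMap.ext fun z => Subtype.ext ((shapiroHecke O δ hNM pr hδ).injective (h z))

/-- An endomorphism commuting with the conjugations and the shifted transfers. -/
theorem mem_parAlg_of_commute {f : Module.End O (parabolicHoms O (gammaH δ hNM) O)}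
    (hconj : ∀ ε : Gamma0 M, Commute f (conjParLin ε))
    (htr : ∀ i, haveI : Fact (pr i).1.1.Prime := ⟨(pr i).1.2⟩
      ∀ (r : HIdx M (pr i).1.1 → Gamma0 M)
        (E : Corr (sigma0 N L) (gammaH δ hNM) (gammaH δ hNM) (HIdx M (pr i).1.1)),
        ShiftedCorr E r → Commute f (transParLin E)) :
    f ∈ parAlg O δ hNM pr hδ :=
  exists_parEnd hδ f (fun ε φ => congrArg Subtype.val (LinearMap.congr_fun (hconj ε).eq φ))
    fun i r E hrep hadj φ => by
      have : Fact (pr i).1.1.Prime := ⟨(pr i).1.2⟩
      exact congrArg Subtype.val (LinearMap.congr_fun (htr i r E ⟨hrep, hadj⟩).eq φ)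

/-- The action of the equivariant endomorphisms on the parabolic Hecke module. -/
def parAlgHom : parAlg O δ hNM pr hδ →+*
    Module.End (MvPolynomial ι (MonoidAlgebra O Δ)) (parSub O δ hNM pr hδ) where
  toFun f := f.2.choose
  map_one' := parEnd_ext fun z => by
    rw [(Subalgebra.one_mem (parAlg O δ hNM pr hδ)).choose_spec]; rfl
  map_mul' f f' := parEnd_ext fun z => by
    rw [(f * f').2.choose_spec, Module.End.mul_apply, f.2.choose_spec]
    exact congrArg (fun w => (f.1 w).1) (Subtype.ext (f'.2.choose_spec z).symm)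
  map_zero' := parEnd_ext fun z => by
    rw [(Subalgebra.zero_mem (parAlg O δ hNM pr hδ)).choose_spec]; simp
  map_add' f f' := parEnd_ext fun z => by
    rw [(f + f').2.choose_spec, LinearMap.add_apply, Submodule.coe_add, map_add, f.2.choose_spec,
      f'.2.choose_spec, Subalgebra.coe_add, LinearMap.add_apply, Submodule.coe_add]

/-- `parAlgHom f` is `f` read through Shapiro's isomorphism. -/
theorem parAlgHom_spec (f : parAlg O δ hNM pr hδ) (z : parSub O δ hNM pr hδ) :
    shapiroHecke O δ hNM pr hδ (parAlgHom f z : DiamondH1 O δ hNM pr) =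
      (f.1 ⟨shapiroHecke O δ hNM pr hδ z.1, z.2⟩).1 := f.2.choose_spec z

/-- An endomorphism that is `f` read through Shapiro's isomorphism equals `parAlgHom f`. -/
theorem parAlgHom_eq {f : parAlg O δ hNM pr hδ}
    {F : Module.End (MvPolynomial ι (MonoidAlgebra O Δ)) (parSub O δ hNM pr hδ)}
    (h : ∀ z, shapiroHecke O δ hNM pr hδ (F z : DiamondH1 O δ hNM pr) =
      (f.1 ⟨shapiroHecke O δ hNM pr hδ z.1, z.2⟩).1) : parAlgHom f = F :=
  parEnd_ext fun z => (parAlgHom_spec f z).trans (h z).symm

/-- An equivariant endomorphism is determined by its action on the parabolic Hecke module. -/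
theorem parAlgHom_injective : Function.Injective (parAlgHom (O := O) (δ := δ) (hNM := hNM)
    (pr := pr) (hδ := hδ)) := fun f f' h => by
  refine Subtype.ext (LinearMap.ext fun φ => Subtype.ext ?_)
  let z : parSub O δ hNM pr hδ := ⟨(shapiroHecke O δ hNM pr hδ).symm φ.1, by
    rw [mem_parSub, AddEquiv.apply_symm_apply]; exact φ.2⟩
  have h1 := (parAlgHom_spec f z).symm.trans ((congrArg (fun F => shapiroHecke O δ hNM pr hδ
    (F z : DiamondH1 O δ hNM pr)) h).trans (parAlgHom_spec f' z))
  have e : (⟨shapiroHecke O δ hNM pr hδ z.1, z.2⟩ : parabolicHoms O (gammaH δ hNM) O) = φ :=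
    Subtype.ext (AddEquiv.apply_symm_apply _ _)
  rwa [e] at h1

/-- Scalars act as the diamond algebra does. -/
theorem scalar_diamond_spec (u : Δ) (a : O) {ε : Gamma0 M} (hε : gammaClass δ hNM ε = u⁻¹)
    (z : parSub O δ hNM pr hδ) :
    shapiroHecke O δ hNM pr hδ
        ((algebraMap (MvPolynomial ι (MonoidAlgebra O Δ))
          (Module.End (MvPolynomial ι (MonoidAlgebra O Δ)) (parSub O δ hNM pr hδ))
          (C (MonoidAlgebra.single u a)) z : parSub O δ hNM pr hδ) : DiamondH1 O δ hNM pr) =
      ((a • conjParLin ε : Module.End O (parabolicHoms O (gammaH δ hNM) O))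
        ⟨shapiroHecke O δ hNM pr hδ z.1, z.2⟩).1 := by
  rw [Module.algebraMap_end_apply, Submodule.coe_smul, C_smul_eq,
    show MonoidAlgebra.single u a =
      MonoidAlgebra.single (1 : Δ) a * MonoidAlgebra.single u (1 : O) by
      rw [MonoidAlgebra.single_mul_single, one_mul, mul_one],
    mul_smul, shapiroHecke_scalar, shapiroHecke_group hδ hε]
  rfl

/-- Multiples of diamond conjugations are equivariant endomorphisms. -/
theorem smul_conjParLin_mem (u : Δ) (a : O) {ε : Gamma0 M} (hε : gammaClass δ hNM ε = u⁻¹) :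
    (a • conjParLin ε : Module.End O (parabolicHoms O (gammaH δ hNM) O)) ∈ parAlg O δ hNM pr hδ :=
  ⟨_, scalar_diamond_spec u a hε⟩

/-- On the parabolic Hecke module `a` times a conjugation of class `u⁻¹` is the scalar `a[u]`. -/
theorem parAlgHom_smul_conjParLin (u : Δ) (a : O) {ε : Gamma0 M} (hε : gammaClass δ hNM ε = u⁻¹) :
    parAlgHom (⟨_, smul_conjParLin_mem (pr := pr) (hδ := hδ) u a hε⟩ : parAlg O δ hNM pr hδ) =
      algebraMap (MvPolynomial ι (MonoidAlgebra O Δ)) _ (C (MonoidAlgebra.single u a)) :=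
  parAlgHom_eq (scalar_diamond_spec u a hε)

/-- Diamond scalars are central among the equivariant endomorphisms. -/
theorem commute_smul_conjParLin (u : Δ) (a : O) {ε : Gamma0 M} (hε : gammaClass δ hNM ε = u⁻¹)
    (f : parAlg O δ hNM pr hδ) :
    Commute (⟨_, smul_conjParLin_mem u a hε⟩ : parAlg O δ hNM pr hδ) f :=
  parAlgHom_injective (by
    rw [map_mul, map_mul, parAlgHom_smul_conjParLin u a hε]
    exact Algebra.commutes _ _)

variable (O δ hNM pr hδ) in
/-- The chosen transfers. -/
theorem exists_transfer_mem (i : ι) :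
    haveI : Fact (pr i).1.1.Prime := ⟨(pr i).1.2⟩
    ∃ (r : HIdx M (pr i).1.1 → Gamma0 M)
      (E : Corr (sigma0 N L) (gammaH δ hNM) (gammaH δ hNM) (HIdx M (pr i).1.1)),
      ShiftedCorr E r ∧
        ∀ z : parSub O δ hNM pr hδ, shapiroHecke O δ hNM pr hδ
          ((algebraMap (MvPolynomial ι (MonoidAlgebra O Δ))
            (Module.End (MvPolynomial ι (MonoidAlgebra O Δ)) (parSub O δ hNM pr hδ))
            (MvPolynomial.X i) z : parSub O δ hNM pr hδ) : DiamondH1 O δ hNM pr) =
          ((transParLin E : Module.End O (parabolicHoms O (gammaH δ hNM) O))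
            ⟨shapiroHecke O δ hNM pr hδ z.1, z.2⟩).1 := by
  obtain ⟨r, E, hrep, hadj, hE⟩ := exists_transfer (O := O) (pr := pr) (hNM := hNM) hδ i
  refine ⟨r, E, ⟨hrep, hadj⟩, fun z => ?_⟩
  rw [Module.algebraMap_end_apply, Submodule.coe_smul, hE]
  rfl

end FermatAgent.HM
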