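import Fermat.Agent.Period.Lattice
import Mathlib.LinearAlgebra.Matrix.ToLin

/-!
# Extension of coefficients for parabolic homomorphisms

Endomorphisms of the parabolic homomorphisms into `R` extend to those into an `R`-algebra.
-/

set_option autoImplicit false

open scoped MatrixGroups Matrix
open ModularCurve ModularCurve.Period
open FermatAgent.Period (parRank parElt parHom parabolicCoords)

noncomputable section

namespace FermatAgent.HM

variable {Γ : Subgroup SL(2, ℤ)} {R O : Type*} [CommRing R] [CommRing O] [Algebra R O]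

/-- Change of coefficients of a parabolic homomorphism. -/
def pushPar : parabolicHoms R Γ R →ₗ[R] parabolicHoms R Γ O where
  toFun ψ := ⟨(algebraMap R O).toAddMonoidHom.comp ψ.1, fun γ hγ => by
    show algebraMap R O (ψ.1 (Additive.ofMul γ)) = 0
    rw [ψ.2 γ hγ, map_zero]⟩
  map_add' ψ ψ' := Subtype.ext (AddMonoidHom.ext fun x => by simp)
  map_smul' a ψ := Subtype.ext (AddMonoidHom.ext fun x => by simp [Algebra.smul_def])

/-- The same homomorphism, regarded in the module over the larger ring. -/
def pushParO (ψ : parabolicHoms R Γ R) : parabolicHoms O Γ O :=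
  ⟨(pushPar (O := O) ψ).1, (pushPar ψ).2⟩

/-- The extension of coefficients of `ψ` takes the value `ψ γ` read in `O` at `γ`. -/
theorem pushParO_apply (ψ : parabolicHoms R Γ R) (γ : Γ) :
    (pushParO (O := O) ψ).1 (Additive.ofMul γ) = algebraMap R O (ψ.1 (Additive.ofMul γ)) := rfl

variable [Γ.FiniteIndex] [IsAddTorsionFree R] [IsAddTorsionFree O]

/-- The basic homomorphisms span. -/
theorem eq_sum_pushParO (φ : parabolicHoms O Γ O) :
    φ = ∑ j, φ.1 (Additive.ofMul (parElt Γ j)) •
      pushParO ((parabolicCoords Γ R R).symm (Pi.single j 1)) := by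
  classical
  refine (parabolicCoords Γ O O).injective (funext fun i => ?_)
  rw [map_sum, Finset.sum_apply]
  have h : ∀ j, (parabolicCoords Γ O O)
      (pushParO ((parabolicCoords Γ R R).symm (Pi.single j (1 : R)))) i =
        if i = j then 1 else 0 := by
    intro j
    show algebraMap R O ((parabolicCoords Γ R R)
      ((parabolicCoords Γ R R).symm (Pi.single j 1)) i) = _
    rw [LinearEquiv.apply_symm_apply, Pi.single_apply]
    split <;> simp
  simp only [map_smul, Pi.smul_apply, h, smul_eq_mul, mul_ite, mul_one, mul_zero,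
    Finset.sum_ite_eq, Finset.mem_univ, if_true]
  rfl

/-- Linear maps agreeing on pushed homomorphisms are equal. -/
theorem ext_pushParO {X : Type*} [AddCommGroup X] [Module O X]
    {F F' : parabolicHoms O Γ O →ₗ[O] X}
    (h : ∀ ψ : parabolicHoms R Γ R, F (pushParO ψ) = F' (pushParO ψ)) : F = F' :=
  LinearMap.ext fun φ => by
    rw [eq_sum_pushParO (R := R) φ, map_sum, map_sum]
    exact Finset.sum_congr rfl fun j _ => by rw [map_smul, map_smul, h]

variable (Γ R O) in
/-- Extension of endomorphisms to larger coefficients. -/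
def extPar : Module.End R (parabolicHoms R Γ R) →+* Module.End O (parabolicHoms O Γ O) :=
  ((parabolicCoords Γ O O).symm.conjAlgEquiv O).toAlgHom.toRingHom.comp
    (Matrix.toLinAlgEquiv'.toAlgHom.toRingHom.comp ((algebraMap R O).mapMatrix.comp
      (LinearMap.toMatrixAlgEquiv'.toAlgHom.toRingHom.comp
        ((parabolicCoords Γ R R).conjAlgEquiv R).toAlgHom.toRingHom)))

/-- The extended endomorphism agrees with `f` on homomorphisms with values in `R`. -/
theorem extPar_pushParO (f : Module.End R (parabolicHoms R Γ R)) (ψ : parabolicHoms R Γ R) :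
    extPar Γ R O f (pushParO ψ) = pushParO (f ψ) := by
  set A := LinearMap.toMatrixAlgEquiv' ((parabolicCoords Γ R R).conjAlgEquiv R f) with hA
  have h1 : A *ᵥ parabolicCoords Γ R R ψ = parabolicCoords Γ R R (f ψ) := by
    rw [hA, ← Matrix.toLinAlgEquiv'_apply, Matrix.toLinAlgEquiv'_toMatrixAlgEquiv']
    simp [LinearEquiv.conjAlgEquiv_apply]
  have hc : ∀ χ : parabolicHoms R Γ R, parabolicCoords Γ O O (pushParO χ) =
      algebraMap R O ∘ parabolicCoords Γ R R χ := fun χ => rfl
  have h2 : extPar Γ R O f (pushParO ψ) = (parabolicCoords Γ O O).symm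
      ((A.map (algebraMap R O)) *ᵥ parabolicCoords Γ O O (pushParO ψ)) := by
    simp [extPar, hA, LinearEquiv.conjAlgEquiv_apply]
  rw [h2, LinearEquiv.symm_apply_eq, hc, hc, ← h1]
  exact funext fun i => (RingHom.map_mulVec (algebraMap R O) _ _ i).symm

/-- The extension of a map is determined on pushed homomorphisms. -/
theorem extPar_eq_of (f : Module.End R (parabolicHoms R Γ R))
    (F : Module.End O (parabolicHoms O Γ O)) (h : ∀ ψ, F (pushParO ψ) = pushParO (f ψ)) :
    extPar Γ R O f = F :=
  ext_pushParO fun ψ => by rw [extPar_pushParO, h]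

end FermatAgent.HM
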