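import Fermat.Agent.HM.Gal.Congruence
import Fermat.Agent.HM.Gal.Extend
import Fermat.Agent.ES.Tate.Module

/-!
# The `p`-adic Galois action on parabolic homomorphisms of `Γ_H`

The limit over the characters of `p`-power order is a continuous representation `galParLin` of
`Gal(Q̄/Q)` on the parabolic homomorphisms of `Γ_H` into `ℤ_p`, unramified outside `p M`, which
commutes with the diamond and Hecke operators and satisfies the congruence relation
`T_ℓ = Frob + ℓ ⟨ℓ⟩ Frob⁻¹`; `galParO` is its extension to coefficients in a `ℤ_p`-algebra.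
-/

set_option autoImplicit false

open CongruenceSubgroup
open scoped MatrixGroups
open ModularCurve ModularCurve.Period
open FermatAgent.Period (parRank parElt parabolicCoords)
open FermatAgent.ES (GQ galChar padChar)

noncomputable section

namespace FermatAgent.HM

variable {Δ : Type*} [CommGroup Δ] {N L M : ℕ} [NeZero M]
variable {δ : (ZMod N)ˣ →* Δ} {hNM : N ∣ M}

instance finiteIndex_gammaH : (gammaH δ hNM).FiniteIndex :=
  Subgroup.finiteIndex_of_le (H := Gamma M) fun _ hg =>
    (mem_gammaH_iff δ hNM).mpr (gammaClass_eq_one_of_mem_gamma hg)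

section Ops

variable {R : Type*} [CommRing R]
omit [NeZero M]

/-- Conjugation as a linear map on parabolic homomorphisms. -/
def conjParLin (ε : Gamma0 M) : Module.End R (parabolicHoms R (gammaH δ hNM) R) where
  toFun φ := ⟨conjHomOp ε φ.1, conjHomOp_parabolic ε φ.2⟩
  map_add' φ φ' := Subtype.ext (map_add (conjHomOp ε) φ.1 φ'.1)
  map_smul' _ _ := Subtype.ext (AddMonoidHom.ext fun _ => rfl)

/-- Diamond conjugation depends only on the diamond class. -/
theorem conjParLin_congr {ε ε' : Gamma0 M} (h : gammaClass δ hNM ε = gammaClass δ hNM ε') :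
    (conjParLin ε : Module.End R (parabolicHoms R (gammaH δ hNM) R)) = conjParLin ε' :=
  LinearMap.ext fun φ => Subtype.ext (AddMonoidHom.ext fun x =>
    congrArg Multiplicative.toAdd (DFunLike.congr_fun
      (comp_conjGammaH_congr (AddMonoidHom.toMultiplicativeRight φ.1) h) (Additive.toMul x)))

variable {ι : Type} [Fintype ι]

/-- A transfer as a linear map on parabolic homomorphisms. -/
def transParLin (E : Corr (sigma0 N L) (gammaH δ hNM) (gammaH δ hNM) ι) :
    Module.End R (parabolicHoms R (gammaH δ hNM) R) where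
  toFun φ := ⟨E.homOp φ.1, E.homOp_parabolic φ.2⟩
  map_add' φ φ' := Subtype.ext (map_add E.homOp φ.1 φ'.1)
  map_smul' a φ := Subtype.ext (AddMonoidHom.ext fun x => by
    obtain ⟨γ, rfl⟩ := Additive.ofMul.surjective x
    simp [Corr.homOp_apply, Finset.mul_sum])

theorem transParLin_apply (E : Corr (sigma0 N L) (gammaH δ hNM) (gammaH δ hNM) ι)
    (φ : parabolicHoms R (gammaH δ hNM) R) (γ : gammaH δ hNM) :
    (transParLin E φ).1 (Additive.ofMul γ) = ∑ i, φ.1 (Additive.ofMul (E.fac γ i)) := rfl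

variable {O : Type*} [CommRing O] [Algebra R O]

/-- Diamond conjugation commutes with extension of coefficients. -/
theorem conjParLin_pushParO (ε : Gamma0 M) (ψ : parabolicHoms R (gammaH δ hNM) R) :
    (conjParLin ε (pushParO ψ) : parabolicHoms O (gammaH δ hNM) O) = pushParO (conjParLin ε ψ) :=
  Subtype.ext (AddMonoidHom.ext fun _ => rfl)

/-- Transfers commute with extension of coefficients. -/
theorem transParLin_pushParO (E : Corr (sigma0 N L) (gammaH δ hNM) (gammaH δ hNM) ι)
    (ψ : parabolicHoms R (gammaH δ hNM) R) :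
    (transParLin E (pushParO ψ) : parabolicHoms O (gammaH δ hNM) O) =
      pushParO (transParLin E ψ) := Subtype.ext (AddMonoidHom.ext fun x => by
    obtain ⟨γ, rfl⟩ := Additive.ofMul.surjective x
    show ∑ i, algebraMap R O _ = algebraMap R O (∑ i, _)
    rw [map_sum])

end Ops

variable (p : ℕ) [hp : Fact p.Prime] (hneg : δ (-1) = 1)

local notation "V" => parabolicHoms ℤ_[p] (gammaH δ hNM) ℤ_[p]

/-- The Galois action on parabolic homomorphisms of `Γ_H` into `ℤ_p`. -/
def galParPad (g : GQ) (ψ : V) : V := ES.galPadOf p (goodLevel_gammaH (hNM := hNM) hneg) g ψ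

/-- Reduced modulo `p ^ k`, the `p`-adic action is the Galois action on characters of order
dividing `p ^ k`. -/
theorem padChar_galParPad (g : GQ) (ψ : V) (k : ℕ) :
    padChar p k (galParPad p hneg g ψ) =
      galChar (goodLevel_gammaH (hNM := hNM) hneg) (p ^ k) g (padChar p k ψ) :=
  ES.padChar_galPadOf p _ g ψ k

/-- The representation as linear maps. -/
def galParLin : GQ →* Module.End ℤ_[p] V := ES.galLinOf p (goodLevel_gammaH (hNM := hNM) hneg)

/-- The linear representation `galParLin` is the `p`-adic action `galParPad`. -/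
theorem galParLin_apply (g : GQ) (ψ : V) : galParLin p hneg g ψ = galParPad p hneg g ψ := rfl

omit [NeZero M] in
/-- Reduction modulo `p ^ k` commutes with diamond conjugation. -/
theorem padChar_conjParLin (ε : Gamma0 M) (k : ℕ) (ψ : V) :
    padChar p k (conjParLin ε ψ) = conjParChar ε (padChar p k ψ) := rfl

omit [NeZero M] in
theorem padChar_transParLin {ι : Type} [Fintype ι]
    (E : Corr (sigma0 N L) (gammaH δ hNM) (gammaH δ hNM) ι) (k : ℕ) (ψ : V) :
    (padChar p k (transParLin E ψ) : gammaH δ hNM →* ℂˣ) =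
      E.charTr (padChar p k ψ : gammaH δ hNM →* ℂˣ) := by
  refine MonoidHom.ext fun γ => ?_
  simp only [ES.padChar_apply, Corr.charTr_apply, transParLin_apply, map_sum, ES.zU_sum]

theorem galParLin_conj (g : GQ) (ε : Gamma0 M) :
    Commute (galParLin p hneg g) (conjParLin ε : Module.End ℤ_[p] V) :=
  LinearMap.ext fun ψ => ES.padChar_ext p fun k => by
    simp only [Module.End.mul_apply, galParLin_apply, padChar_galParPad, padChar_conjParLin]
    exact galChar_conjParChar hneg g ε _

section Hecke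

variable {ℓ : ℕ} [Fact ℓ.Prime]
variable {E : Corr (sigma0 N L) (gammaH δ hNM) (gammaH δ hNM) (HIdx M ℓ)} {r : HIdx M ℓ → Gamma0 M}

theorem ShiftedCorr.galParLin_trans (h : ShiftedCorr E r) (g : GQ) :
    Commute (galParLin p hneg g) (transParLin E : Module.End ℤ_[p] V) :=
  LinearMap.ext fun ψ => ES.padChar_ext p fun k => by
    refine Subtype.ext ?_
    simp only [Module.End.mul_apply, galParLin_apply, padChar_galParPad, padChar_transParLin]
    have e := h.galChar_charTr hneg g (padChar p k ψ)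
    rw [show padChar p k (transParLin E ψ) =
      ⟨E.charTr (padChar p k ψ : gammaH δ hNM →* ℂˣ), E.charTr_mem h.det_pos (padChar p k ψ).2⟩ from
        Subtype.ext (padChar_transParLin p E k ψ), e]

/-- **The congruence relation**: `T_ℓ = Frob + ℓ ⟨ℓ⟩ Frob⁻¹`. -/
theorem ShiftedCorr.transParLin_eq (h : ShiftedCorr E r) (hℓM : ¬ ℓ ∣ M) (hℓp : ℓ ≠ p)
    {A : ValuationSubring (AlgebraicClosure ℚ)} (hA : A.LiesOverPrime ℓ) {g : GQ}
    (hg : A.IsFrobeniusAt g ℓ) :
    (transParLin E : Module.End ℤ_[p] V) = galParLin p hneg g +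
      (ℓ : ℤ_[p]) • (galParLin p hneg g⁻¹ * conjParLin (r (inftyIdx hℓM))) := by
  refine LinearMap.ext fun ψ => ES.padChar_ext p fun k => ?_
  have hℓ : ℓ.Prime := Fact.out
  rw [LinearMap.add_apply, LinearMap.smul_apply, Module.End.mul_apply, ES.padChar_add,
    galParLin_apply, galParLin_apply, padChar_galParPad]
  refine Subtype.ext ?_
  rw [padChar_transParLin, h.galChar_congruence hneg hℓM
    (fun hd => hℓp ((Nat.prime_dvd_prime_iff_eq hℓ hp.out).mp (hℓ.dvd_of_dvd_pow hd))) hA hg,
    Subgroup.coe_mul]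
  congr 1
  rw [← padChar_conjParLin, ← padChar_galParPad, Nat.cast_smul_eq_nsmul, ES.padChar_nsmul,
    SubgroupClass.coe_pow]

end Hecke

/-- The `p`-adic representation is unramified at primes `ℓ ∤ pM`. -/
theorem galParLin_inertia {ℓ : ℕ} (hℓ : ℓ.Prime) (hℓM : ¬ ℓ ∣ M) (hℓp : ℓ ≠ p)
    {A : ValuationSubring (AlgebraicClosure ℚ)} (hA : A.LiesOverPrime ℓ) {g : GQ}
    (hg : g ∈ A.inertiaSubgroupIn ℚ) : galParLin p hneg g = (1 : Module.End ℤ_[p] V) :=
  ES.galLinOf_inertia p _ hℓ hℓM hℓp hA hg

/-- The representation is continuous. -/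
theorem galParLin_continuous (k : ℕ) :
    ∃ L₀ : IntermediateField ℚ (AlgebraicClosure ℚ), FiniteDimensional ℚ L₀ ∧
      ∀ g : GQ, (∀ x ∈ L₀, g x = x) → ∃ f : Module.End ℤ_[p] V,
        galParLin p hneg g = 1 + (p : ℤ_[p]) ^ k • f := by
  obtain ⟨L₀, hL, h⟩ := ES.galChar_finite_level (goodLevel_gammaH (hNM := hNM) hneg) (p ^ k)
  refine ⟨L₀, hL, fun g hg => ?_⟩
  have hd : ∀ (ψ : V) i, (p : ℤ_[p]) ^ k ∣
      parabolicCoords (gammaH δ hNM) ℤ_[p] ℤ_[p] (galParLin p hneg g ψ - ψ) i := fun ψ i =>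
    ES.dvd_of_padChar_eq p (by
      rw [galParLin_apply, padChar_galParPad, h g hg, MulAut.one_apply]) _
  choose c hc using fun j i =>
    hd ((parabolicCoords (gammaH δ hNM) ℤ_[p] ℤ_[p]).symm (Pi.single j 1)) i
  refine ⟨((parabolicCoords (gammaH δ hNM) ℤ_[p] ℤ_[p]).symm.toLinearMap ∘ₗ
    Matrix.toLin' (Matrix.of fun i j => c j i)) ∘ₗ
      (parabolicCoords (gammaH δ hNM) ℤ_[p] ℤ_[p]).toLinearMap, ?_⟩
  classical
  let b := Module.Basis.ofEquivFun (parabolicCoords (gammaH δ hNM) ℤ_[p] ℤ_[p])
  refine b.ext fun j => (parabolicCoords (gammaH δ hNM) ℤ_[p] ℤ_[p]).injective (funext fun i => ?_)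
  have hb : b j = (parabolicCoords (gammaH δ hNM) ℤ_[p] ℤ_[p]).symm (Pi.single j 1) := by
    simp [b, Module.Basis.coe_ofEquivFun]
  rw [hb]
  have h1 := hc j i
  rw [map_sub, Pi.sub_apply, sub_eq_iff_eq_add, LinearEquiv.apply_symm_apply] at h1
  rw [h1]
  simp [add_comm]

section Coeff

variable (O : Type*) [CommRing O] [Algebra ℤ_[p] O] [IsAddTorsionFree O]

/-- The Galois action with coefficients in an algebra. -/
def galParO : GQ →* Module.End O (parabolicHoms O (gammaH δ hNM) O) :=
  (extPar (gammaH δ hNM) ℤ_[p] O).toMonoidHom.comp (galParLin p hneg)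

/-- The extension of diamond conjugation to coefficients in `O` is diamond conjugation. -/
theorem extPar_conjParLin (ε : Gamma0 M) :
    extPar (gammaH δ hNM) ℤ_[p] O (conjParLin ε) = conjParLin ε :=
  extPar_eq_of _ _ (conjParLin_pushParO ε)

theorem extPar_transParLin {ι : Type} [Fintype ι]
    (E : Corr (sigma0 N L) (gammaH δ hNM) (gammaH δ hNM) ι) :
    extPar (gammaH δ hNM) ℤ_[p] O (transParLin E) = transParLin E :=
  extPar_eq_of _ _ (transParLin_pushParO E)

/-- The Galois action with coefficients in `O` commutes with diamond conjugation. -/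
theorem galParO_conj (g : GQ) (ε : Gamma0 M) :
    Commute (galParO p hneg O g)
      (conjParLin ε : Module.End O (parabolicHoms O (gammaH δ hNM) O)) := by
  have h := (galParLin_conj p hneg g ε).map (extPar (gammaH δ hNM) ℤ_[p] O)
  rwa [extPar_conjParLin] at h

variable {ℓ : ℕ} [Fact ℓ.Prime]
variable {E : Corr (sigma0 N L) (gammaH δ hNM) (gammaH δ hNM) (HIdx M ℓ)} {r : HIdx M ℓ → Gamma0 M}

/-- The Galois action with coefficients in `O` commutes with the shifted Hecke transfers. -/
theorem ShiftedCorr.galParO_trans (h : ShiftedCorr E r) (g : GQ) :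
    Commute (galParO p hneg O g)
      (transParLin E : Module.End O (parabolicHoms O (gammaH δ hNM) O)) := by
  have e := (h.galParLin_trans p hneg g).map (extPar (gammaH δ hNM) ℤ_[p] O)
  rwa [extPar_transParLin] at e

/-- The congruence relation `T_ℓ = Frob + ℓ ⟨ℓ⟩ Frob⁻¹` on parabolic homomorphisms of `Γ_H`, for
`ℓ ∤ pM`. -/
theorem ShiftedCorr.transParLin_eq_galParO (h : ShiftedCorr E r) (hℓM : ¬ ℓ ∣ M) (hℓp : ℓ ≠ p)
    {A : ValuationSubring (AlgebraicClosure ℚ)} (hA : A.LiesOverPrime ℓ) {g : GQ}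
    (hg : A.IsFrobeniusAt g ℓ) :
    (transParLin E : Module.End O (parabolicHoms O (gammaH δ hNM) O)) = galParO p hneg O g +
      (ℓ : O) • (galParO p hneg O g⁻¹ * conjParLin (r (inftyIdx hℓM))) := by
  have e := congrArg (extPar (gammaH δ hNM) ℤ_[p] O) (h.transParLin_eq p hneg hℓM hℓp hA hg)
  rw [extPar_transParLin, map_add, Nat.cast_smul_eq_nsmul, map_nsmul, map_mul,
    extPar_conjParLin] at e
  rw [Nat.cast_smul_eq_nsmul]
  exact e

end Coeff

end FermatAgent.HM
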