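import Fermat.Agent.HM.Gal.Commute

/-!
# The congruence relation on parabolic characters of `Γ_H`

At a prime `ℓ ∤ M n`, the Hecke transfer on parabolic characters of `Γ_H` of order dividing `n`
is `Frob + ℓ ⟨ℓ⟩ Frob⁻¹` (`ShiftedCorr.galChar_congruence`), by reducing suitable forms modulo a
place over `ℓ`.
-/

set_option autoImplicit false

open UpperHalfPlane CongruenceSubgroup
open scoped MatrixGroups ModularForm Manifold
open P2MW.S_ModularForm_heckeT_slash_eq_self_of_mem_Gamma0.ModularForm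
open FermatAgent.ES (IsTwist parGroup HasExp GQ galChar embC CPlace AuxLevel)

noncomputable section

namespace FermatAgent.HM

/-- A complex number fixed by the automorphisms fixing all algebraic numbers is algebraic. -/
theorem isAlgebraic_of_fixed {x : ℂ}
    (h : ∀ σ : ℂ ≃+* ℂ, (∀ y : ℂ, IsAlgebraic ℚ y → σ y = y) → σ x = x) : IsAlgebraic ℚ x := by
  let : Algebra (AlgebraicClosure ℚ) ℂ := embC.toRingHom.toAlgebra
  have : IsScalarTower ℚ (AlgebraicClosure ℚ) ℂ :=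
    IsScalarTower.of_algebraMap_eq fun q => (embC.commutes q).symm
  by_contra hx
  obtain ⟨σ, hfix, hσ⟩ := MF.exists_translate (R := AlgebraicClosure ℚ) (x := x)
    (fun hx' => hx (hx'.restrictScalars ℚ)) 1
  have hy : ∀ y : ℂ, IsAlgebraic ℚ y → σ y = y := fun y hy => by
    obtain ⟨z, rfl⟩ := ES.exists_embC_eq hy
    exact hfix z
  simp [h σ hy] at hσ

variable {ℓ : ℕ} {P : CPlace ℓ}

section Norm

variable {Δ : Type*} [CommGroup Δ] {N M : ℕ} [NeZero M]
variable {δ : (ZMod N)ˣ →* Δ} {hNM : N ∣ M}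
variable {K m : ℕ} [NeZero K] (haux : AuxLevel K m) (hMK : M ∣ K) (hneg : δ (-1) = 1)
  {n : ℕ} [NeZero n]
include haux hMK hneg

omit [NeZero M] in
/-- A multiple of the translate of a form with algebraic series has an algebraic series which is
integral and nonzero modulo `P`. -/
theorem exists_int_translate (hP : P.HasCDVRs) (hK : K.Coprime ℓ) (hn : n.Coprime ℓ)
    (φ : parGroup (gammaH δ hNM) n) {i : ℕ} {v : ℍ → ℂ} {c : PowerSeries ℂ}
    (hv : IsTwist (gammaH δ hNM) ((2 * i : ℕ) : ℤ) (φ : gammaH δ hNM →* ℂˣ) v) (hv0 : v ≠ 0)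
    (hc : HasExp K v c) (halg : ∀ e, IsAlgebraic ℚ (PowerSeries.coeff e c)) (ε : Gamma0 M) :
    ∃ (a : ℂ) (d : PowerSeries P.ring), a ≠ 0 ∧
      HasExp K (a • (v ∣[((2 * i : ℕ) : ℤ)] (ε : SL(2, ℤ))⁻¹)) (d.map P.ring.subtype) ∧
      d.map P.res ≠ 0 ∧ ∀ e, IsAlgebraic ℚ ((PowerSeries.coeff e d : P.ring) : ℂ) := by
  set k : ℤ := ((2 * i : ℕ) : ℤ)
  have hG := goodLevel_gammaH (hNM := hNM) hneg
  have hΓ : Gamma K ≤ gammaH δ hNM := (ES.gamma_le_of_dvd hMK).trans hG.gamma_le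
  have hw := isTwist_slash_conj ε hv
  have hd : HasExp K (v ∣[k] (ε : SL(2, ℤ))⁻¹) (qExpansion (K : ℝ) (v ∣[k] (ε : SL(2, ℤ))⁻¹)) := by
    have h := ES.hasExp_slash_twist (M := K) hΓ φ.2.2 hv (ε : SL(2, ℤ))⁻¹
    exact h
  set D := qExpansion (K : ℝ) (v ∣[k] (ε : SL(2, ℤ))⁻¹)
  obtain ⟨i₀, hi0, himax⟩ := ES.exists_max_coeff haux hΓ hP hK hn (conjParChar ε φ).2.1 hw
    (ES.slash_ne_zero _ hv0) hd
  set a := (PowerSeries.coeff i₀ D)⁻¹
  have hin : ∀ e, a * PowerSeries.coeff e D ∈ P.ring := fun e => by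
    rw [P.mem_ring, map_mul, map_inv₀, inv_mul_le_one₀ (P.abv.pos hi0)]
    exact himax e
  refine ⟨a, PowerSeries.mk fun e => ⟨_, hin e⟩, inv_ne_zero hi0, ?_, fun h => ?_, fun e => ?_⟩
  · convert (hd.smul a).congr_fun (g := a • (v ∣[k] (ε : SL(2, ℤ))⁻¹)) (fun τ => rfl) using 1
    ext e
    simp [PowerSeries.coeff_C_mul]
  · have h1 := congrArg (PowerSeries.coeff i₀) h
    rw [PowerSeries.coeff_map, PowerSeries.coeff_mk, map_zero, P.res_eq_zero_iff] at h1
    simp [a, hi0] at h1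
  · rw [PowerSeries.coeff_mk]
    refine isAlgebraic_of_fixed fun σ hσ => ?_
    have hcσ : c.map (σ : ℂ →+* ℂ) = c := PowerSeries.ext fun e' => by
      rw [PowerSeries.coeff_map]; exact hσ _ (halg e')
    obtain ⟨C, -, hC⟩ := exists_smul_slash_conj haux hMK hneg hv hv0 hv hc (σ := σ)
      (by rw [hcσ]; exact hc) ε hd
    have hCD : D.map (σ : ℂ →+* ℂ) = PowerSeries.C C * D :=
      hC.series_unique ((hd.smul C).congr_fun fun τ => rfl)
    have h' : ∀ e', σ (PowerSeries.coeff e' D) = C * PowerSeries.coeff e' D := fun e' => by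
      have := congrArg (PowerSeries.coeff e') hCD
      rwa [PowerSeries.coeff_map, PowerSeries.coeff_C_mul] at this
    have hC0 : C ≠ 0 := fun h0 => hi0 (σ.injective (by rw [h', h0, zero_mul, map_zero]))
    show σ (a * _) = a * _
    rw [map_mul, map_inv₀, h', h', mul_inv_rev]
    simp only [a]
    field_simp

end Norm

variable {Δ : Type*} [CommGroup Δ] {N L M : ℕ} [NeZero M]
variable {δ : (ZMod N)ˣ →* Δ} {hNM : N ∣ M}

/-- **The congruence relation** `T_ℓ = Frob + ℓ ⟨ℓ⟩ Frob⁻¹` on parabolic characters of `Γ_H` of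
order dividing `n`, written multiplicatively: the transfer of `φ` along a shifted Hecke
correspondence at `ℓ ∤ M n` is `(g φ) (g⁻¹ φ')^ℓ` for a Frobenius element `g` at `ℓ`, where `φ'` is
the conjugate of `φ` by the shift at infinity, whose class is `⟨ℓ⟩⁻¹`
(`ShiftedCorr.class_infty`). -/
theorem ShiftedCorr.galChar_congruence [Fact ℓ.Prime]
    {E : Corr (sigma0 N L) (gammaH δ hNM) (gammaH δ hNM) (HIdx M ℓ)} {r : HIdx M ℓ → Gamma0 M}
    (h : ShiftedCorr E r) (hneg : δ (-1) = 1) (hℓM : ¬ ℓ ∣ M) {n : ℕ} [NeZero n] (hℓn : ¬ ℓ ∣ n)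
    {A : ValuationSubring (AlgebraicClosure ℚ)} (hA : A.LiesOverPrime ℓ) {g : GQ}
    (hg : A.IsFrobeniusAt g ℓ) (φ : parGroup (gammaH δ hNM) n) :
    E.charTr (φ : gammaH δ hNM →* ℂˣ) =
      (galChar (goodLevel_gammaH (hNM := hNM) hneg) n g φ : gammaH δ hNM →* ℂˣ) *
        (galChar (goodLevel_gammaH (hNM := hNM) hneg) n g⁻¹
          (conjParChar (r (inftyIdx hℓM)) φ) : gammaH δ hNM →* ℂˣ) ^ ℓ := by
  have hℓ : ℓ.Prime := Fact.out
  have : NeZero ℓ := ⟨hℓ.ne_zero⟩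
  obtain ⟨Φ, rfl⟩ := ES.exists_padicEquiv_compat hA
  have hP := ES.hasCDVRs_ofEquiv Φ
  have hn := (hℓ.coprime_iff_not_dvd.mpr hℓn).symm
  obtain ⟨K, m, s, haux, hK, hMK, hs, h12⟩ := ES.exists_auxLevel_coprime hℓ hℓM
  have : NeZero K := ⟨fun h => NeZero.ne (12 * M) (by rw [h12, h, mul_zero])⟩
  set ε := r (inftyIdx hℓM)
  obtain ⟨v, cK, hv, hv0, hcK, hcK0, halgK⟩ :=
    ES.exists_int_form haux (goodLevel_gammaH (hNM := hNM) hneg) hMK hs h12 hP hK hn φ
  obtain ⟨a, dK, ha, hdK, hdK0, halgdK⟩ := exists_int_translate (hNM := hNM) haux hMK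
    hneg hP hK hn φ hv hv0 hcK (fun e => by rw [PowerSeries.coeff_map]; exact halgK e) ε
  exact ES.galChar_congruence_of_forms _ haux hMK hs h12 hP hK hn hg φ (conjParChar ε φ) hv hv0
    ((isTwist_slash_conj ε hv).smul a) (smul_ne_zero ha (ES.slash_ne_zero _ hv0)) hcK hdK hcK0
    hdK0 halgK halgdK (E.charTr_mem h.det_pos φ.2) (h.exists_transfer_fun hℓM hv a)

end FermatAgent.HM
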