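import Fermat.Agent.HM.Gal.Transfer

/-!
# Galois commutes with the Hecke transfers of `Γ_H`

On parabolic characters of `Γ_H` of order dividing `n`, the action of `Aut ℂ` through forms with
such multipliers, hence that of `Gal(Q̄/Q)`, commutes with the transfer along a shifted Hecke
correspondence (`ShiftedCorr.galChar_charTr`).
-/

set_option autoImplicit false

open UpperHalfPlane CongruenceSubgroup
open scoped MatrixGroups ModularForm Manifold
open P2MW.S_ModularForm_heckeT_slash_eq_self_of_mem_Gamma0.ModularForm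
open FermatAgent.ES (GoodLevel IsTwist IsParChar parGroup HasExp IsConjTwist conjChar GQ galChar
  autC zetaC prodShift)

noncomputable section

namespace FermatAgent.HM

/-- Series of period one of two forms with conjugate series of a larger period are conjugate. -/
theorem series_one_map {r : ℕ} (hr : r ≠ 0) {σ : ℂ →+* ℂ} {f f' : ℍ → ℂ} {c c' d : PowerSeries ℂ}
    (hc : HasExp 1 f c) (hc' : HasExp 1 f' c') (hd : HasExp r f d)
    (hd' : HasExp r f' (d.map σ)) : c' = c.map σ := by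
  have : NeZero r := ⟨hr⟩
  refine ES.expand_series_injective hr ?_
  rw [← PowerSeries.map_expand, (ES.hasExp_expand_one hr hc).series_unique hd]
  exact (ES.hasExp_expand_one hr hc').series_unique hd'

variable {Δ : Type*} [CommGroup Δ] {N L M ℓ : ℕ} [NeZero M] [Fact ℓ.Prime]
variable {δ : (ZMod N)ˣ →* Δ} {hNM : N ∣ M}
variable {E : Corr (sigma0 N L) (gammaH δ hNM) (gammaH δ hNM) (HIdx M ℓ)} {r : HIdx M ℓ → Gamma0 M}
variable (hneg : δ (-1) = 1) {n : ℕ} [NeZero n]

omit [Fact ℓ.Prime] in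
/-- Conjugate twists from series of period `ℓ`. -/
theorem isConjTwist_of_series (hℓ : ℓ ≠ 0) {σ : ℂ ≃+* ℂ} {ψ ψ' : parGroup (gammaH δ hNM) n} {j : ℕ}
    {u u' : ℍ → ℂ} {U : PowerSeries ℂ}
    (hu : IsTwist (gammaH δ hNM) ((2 * j : ℕ) : ℤ) (ψ : gammaH δ hNM →* ℂˣ) u)
    (hu' : IsTwist (gammaH δ hNM) ((2 * j : ℕ) : ℤ) (ψ' : gammaH δ hNM →* ℂˣ) u')
    (hU : HasExp ℓ u U) (hU0 : U ≠ 0) (hU' : HasExp ℓ u' (U.map (σ : ℂ →+* ℂ))) :
    conjChar (goodLevel_gammaH (hNM := hNM) hneg) σ ψ = ψ' := by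
  have : NeZero ℓ := ⟨hℓ⟩
  set hG := goodLevel_gammaH (hNM := hNM) hneg
  have h1 := ES.hasExp_one_twist hG.T_mem ψ.2.2 hu
  have h1' := ES.hasExp_one_twist hG.T_mem ψ'.2.2 hu'
  rw [series_one_map hℓ h1 h1' hU hU'] at h1'
  have h12 : 12 * M ≠ 0 := NeZero.ne (12 * M)
  refine ES.conjChar_eq hG (IsConjTwist.mk_of hu (fun h => hU0 ?_) hu' (ES.hasExp_expand_one h12 h1)
    (by rw [PowerSeries.map_expand]; exact ES.hasExp_expand_one h12 h1'))
  exact hU.series_unique (h ▸ HasExp.zero)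

/-- Galois commutes with a transfer at a prime not dividing the level. -/
theorem ShiftedCorr.conjChar_charTr (h : ShiftedCorr E r) (σ : ℂ ≃+* ℂ)
    (φ : parGroup (gammaH δ hNM) n) :
    conjChar (goodLevel_gammaH (hNM := hNM) hneg) σ ⟨E.charTr φ.1, E.charTr_mem h.det_pos φ.2⟩ =
      ⟨E.charTr (conjChar (goodLevel_gammaH (hNM := hNM) hneg) σ φ).1,
        E.charTr_mem h.det_pos (conjChar (goodLevel_gammaH (hNM := hNM) hneg) σ φ).2⟩ := by
  set hG := goodLevel_gammaH (hNM := hNM) hneg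
  have hℓ := (Fact.out : ℓ.Prime).ne_zero
  have : NeZero ℓ := ⟨hℓ⟩
  obtain ⟨i, v, v', c, hv, hv0, hv', -, hc, hc'⟩ := ES.conjChar_spec hG σ φ
  set φ' := conjChar hG σ φ
  have h12 : 12 * M ≠ 0 := NeZero.ne (12 * M)
  have hc1 := ES.hasExp_one_twist hG.T_mem φ.2.2 hv
  have hc1' := ES.hasExp_one_twist hG.T_mem φ'.2.2 hv'
  rw [series_one_map h12 hc1 hc1' hc hc'] at hc1'
  set c1 := qExpansion ((1 : ℕ) : ℝ) v
  have hc10 : c1 ≠ 0 := fun h0 => hv0 ((h0 ▸ hc1).eq_of_series HasExp.zero)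
  have hP := ES.hasExp_prodShift (ℓ := ℓ) hc1
  have hP' := ES.hasExp_prodShift (ℓ := ℓ) hc1'
  rw [← ES.map_prodShift] at hP'
  by_cases hℓM : ℓ ∣ M
  · have hu := h.exists_transfer_fun_dvd hℓM hv
    have hu' := h.exists_transfer_fun_dvd hℓM hv'
    have hw : ((2 * i : ℕ) : ℤ) * (ℓ : ℤ) = ((2 * (i * ℓ) : ℕ) : ℤ) := by push_cast; ring
    rw [hw] at hu hu'
    exact isConjTwist_of_series hneg hℓ hu hu' hP (ES.prodShift_ne_zero hc10) hP'
  · set ε := r (inftyIdx hℓM)
    have hw := isTwist_slash_conj ε hv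
    have hd := ES.hasExp_twist hG (conjParChar ε φ).2.2 hw
    obtain ⟨C, -, hC⟩ := exists_smul_slash_conj (ES.auxLevel12 M) (dvd_mul_left M 12) hneg hv hv0
      hv' hc hc' ε hd
    have hw' := (isTwist_slash_conj ε hv').smul C
    have hd1 := ES.hasExp_one_twist hG.T_mem (conjParChar ε φ).2.2 hw
    have hd1' := ES.hasExp_one_twist hG.T_mem (conjParChar ε φ').2.2 hw'
    rw [series_one_map h12 hd1 hd1' hd hC] at hd1'
    have hu := h.exists_transfer_fun hℓM hv 1
    have hu' := h.exists_transfer_fun hℓM hv' C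
    rw [one_smul] at hu
    have hwt : ((2 * i : ℕ) : ℤ) * ((ℓ : ℤ) + 1) = ((2 * (i * (ℓ + 1)) : ℕ) : ℤ) := by
      push_cast; ring
    rw [hwt] at hu hu'
    have hU := (ES.hasExp_expand_one hℓ (ES.hasExp_diag hℓ hd1)).mul hP
    have hU' := (ES.hasExp_expand_one hℓ (ES.hasExp_diag hℓ hd1')).mul hP'
    have hd10 : qExpansion ((1 : ℕ) : ℝ) (v ∣[((2 * i : ℕ) : ℤ)] (ε : SL(2, ℤ))⁻¹) ≠ 0 := fun h0 =>
      ES.slash_ne_zero _ hv0 ((h0 ▸ hd1).eq_of_series HasExp.zero)
    refine isConjTwist_of_series hneg hℓ hu hu' hU (mul_ne_zero (fun h0 => hd10 ?_)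
      (ES.prodShift_ne_zero hc10)) ?_
    · exact ES.expand_series_injective hℓ (ES.expand_series_injective hℓ (h0.trans (by simp)))
    · rw [map_mul, PowerSeries.map_expand, PowerSeries.map_expand]
      exact hU'

/-- The Galois action on parabolic characters of `Γ_H` of order dividing `n` commutes with the
transfer along a shifted Hecke correspondence. -/
theorem ShiftedCorr.galChar_charTr (h : ShiftedCorr E r) (g : GQ)
    (φ : parGroup (gammaH δ hNM) n) :
    galChar (goodLevel_gammaH (hNM := hNM) hneg) n g ⟨E.charTr φ.1, E.charTr_mem h.det_pos φ.2⟩ =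
      ⟨E.charTr (galChar (goodLevel_gammaH (hNM := hNM) hneg) n g φ).1,
        E.charTr_mem h.det_pos (galChar (goodLevel_gammaH (hNM := hNM) hneg) n g φ).2⟩ :=
  h.conjChar_charTr hneg (autC g) φ

end FermatAgent.HM
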