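import Fermat.Agent.HM.Gal.Twist
import Fermat.Agent.ES.Hecke.Commute

/-!
# Galois and the Hecke transfers on characters of `Γ_H`

`ShiftedCorr` describes the Hecke correspondence at `ℓ` moved to `Γ_H` by shifts in `Γ₀(M)`. The
transfer of a character along it is the multiplier of an explicit product of translates of a form
with that multiplier (`exists_transfer_fun`, `exists_transfer_fun_dvd`).
-/

set_option autoImplicit false

open UpperHalfPlane CongruenceSubgroup OnePoint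
open scoped MatrixGroups ModularForm Manifold
open P2MW.S_ModularForm_heckeT_slash_eq_self_of_mem_Gamma0.ModularForm
open P2MW.S_ModularForm_heckeT_slash_eq_self_of_mem_Gamma0.ModularForm.HeckeSlashInvariance
open FermatAgent.ES (GoodLevel IsTwist IsParChar parGroup HasExp IsConjTwist conjChar GQ galChar
  autC charOp transferFun zetaC prodShift)

noncomputable section

namespace FermatAgent.HM

section ToTransfer

variable {S : Submonoid Mat2} {Γ : Subgroup SL(2, ℤ)} {ι : Type} (D : Corr S Γ Γ ι)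

/-- A correspondence of positive determinant as transfer data. -/
def Corr.toTransfer (hpos : ∀ i, 0 < (D.rep i).det) : Period.TransferData Γ ι where
  rep i := intGL (D.rep i) (D.det_ne i)
  det_pos i := by
    rw [show ((intGL (D.rep i) (D.det_ne i)) : Matrix (Fin 2) (Fin 2) ℝ) =
      (Int.castRingHom ℝ).mapMatrix (D.rep i) from by ext a b; simp, ← RingHom.map_det]
    simpa using hpos i
  perm := D.perm
  perm_mul := D.perm_mul
  exists_factor γ i := ⟨D.fac γ i, by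
    refine Units.ext (Matrix.ext fun a b => ?_)
    have h := congrArg (fun X : Mat2 => ((X a b : ℤ) : ℝ)) (D.fac_spec γ i)
    simpa [Matrix.mul_apply] using h⟩

theorem Corr.toTransfer_factor (hpos : ∀ i, 0 < (D.rep i).det) (γ : Γ) (i : ι) :
    (D.toTransfer hpos).factor γ i = D.fac γ i := by
  refine (D.fac_unique (Matrix.ext fun a b => ?_)).symm
  have h := congrArg (fun X : GL (Fin 2) ℝ => (X : Matrix (Fin 2) (Fin 2) ℝ) a b)
    ((D.toTransfer hpos).factor_spec γ i)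
  simp [Corr.toTransfer, Matrix.mul_apply] at h
  simp only [Matrix.mul_apply, Fin.sum_univ_two] at h ⊢
  exact_mod_cast h

theorem Corr.toTransfer_int (hpos : ∀ i, 0 < (D.rep i).det) (x : ι) (a b : Fin 2) :
    ∃ z : ℤ, ((D.toTransfer hpos).rep x : Matrix (Fin 2) (Fin 2) ℝ) a b = z :=
  ⟨D.rep x a b, by simp [Corr.toTransfer]⟩

variable [Fintype ι]

/-- The transfer of a character along a correspondence. -/
def Corr.charTr {A : Type*} [CommMonoid A] (φ : Γ →* A) : Γ →* A where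
  toFun γ := ∏ i, φ (D.fac γ i)
  map_one' := by simp [Corr.fac_one]
  map_mul' γ γ' := by
    simp only [Corr.fac_mul, map_mul, Finset.prod_mul_distrib]
    congr 1
    exact Equiv.prod_comp (D.perm γ) fun i => φ (D.fac γ' i)

/-- The transfer of a character is the product of its values at the factors. -/
theorem Corr.charTr_apply {A : Type*} [CommMonoid A] (φ : Γ →* A) (γ : Γ) :
    D.charTr φ γ = ∏ i, φ (D.fac γ i) := rfl

theorem Corr.charTr_eq (hpos : ∀ i, 0 < (D.rep i).det) {A : Type*} [CommMonoid A] (φ : Γ →* A) :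
    D.charTr φ = charOp (D.toTransfer hpos) φ :=
  MonoidHom.ext fun γ => by simp [Corr.charTr_apply, ES.charOp_apply, Corr.toTransfer_factor]

/-- The transfer of a parabolic character of order dividing `n` is one again. -/
theorem Corr.charTr_mem (hpos : ∀ i, 0 < (D.rep i).det) {n : ℕ} {φ : Γ →* ℂˣ}
    (hφ : φ ∈ parGroup Γ n) : D.charTr φ ∈ parGroup Γ n := by
  rw [D.charTr_eq hpos]; exact ES.charOp_mem_parGroup _ hφ

end ToTransfer

section Hecke

variable {Δ : Type*} [CommGroup Δ] {N L M ℓ : ℕ} [Fact ℓ.Prime]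
variable {δ : (ZMod N)ˣ →* Δ} {hNM : N ∣ M}

/-- `E` is the Hecke correspondence at `ℓ` of `Γ₀(M)` moved to `Γ_H` by the shifts `r`: each
standard representative is translated by an element of `Γ₀(M)` so that the class of its adjugate in
`Δ` becomes trivial. -/
structure ShiftedCorr (E : Corr (sigma0 N L) (gammaH δ hNM) (gammaH δ hNM) (HIdx M ℓ))
    (r : HIdx M ℓ → Gamma0 M) : Prop where
  /-- The representatives are the standard ones, translated by the shifts. -/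
  rep_eq : ∀ x, E.rep x = (((r x)⁻¹ : Gamma0 M) : SL(2, ℤ)).1 * hRep M ℓ x
  /-- The diamond class of the adjugate of each representative is trivial. -/
  class_eq : ∀ x, diamondClass δ (E.adj x) = 1

variable {E : Corr (sigma0 N L) (gammaH δ hNM) (gammaH δ hNM) (HIdx M ℓ)} {r : HIdx M ℓ → Gamma0 M}

/-- The index of `(1 j; 0 ℓ)`. -/
def coeIdx (j : ZMod ℓ) : HIdx M ℓ := ⟨(j : OnePoint (ZMod ℓ)), fun h => absurd h (coe_ne_infty j)⟩

/-- The index of `(ℓ 0; 0 1)`. -/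
def inftyIdx (hℓM : ¬ ℓ ∣ M) : HIdx M ℓ := ⟨∞, fun _ => hℓM⟩

/-- The shifted representatives have positive determinant. -/
theorem ShiftedCorr.det_pos (h : ShiftedCorr E r) (x : HIdx M ℓ) : 0 < (E.rep x).det := by
  rw [h.rep_eq, Matrix.det_mul, Matrix.SpecialLinearGroup.det_coe, one_mul, det_hRep]
  exact_mod_cast (Fact.out : ℓ.Prime).pos

/-- The lower right unit of the unshifted adjugate inverts the class of the shift. -/
theorem ShiftedCorr.class_shift (h : ShiftedCorr E r) (x : HIdx M ℓ) :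
    ∃ hu : IsUnit ((hRep M ℓ x 0 0 : ℤ) : ZMod N),
      gammaClass δ hNM (r x) = (δ hu.unit)⁻¹ := by
  have hco : IsCoprime (hRep M ℓ x 0 0) (N : ℤ) :=
    (isCoprime_hRep x).of_isCoprime_of_dvd_right (Int.natCast_dvd_natCast.mpr hNM)
  have hu : IsUnit ((hRep M ℓ x 0 0 : ℤ) : ZMod N) :=
    (ZMod.coe_int_isUnit_iff_isCoprime _ _).mpr hco.symm
  refine ⟨hu, eq_inv_of_mul_eq_one_right ?_⟩
  have hL : IsCoprime ((ℓ : ℕ) : ℤ) (L : ℤ) := by
    have h1 := (E.adj_mem x).2.2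
    rwa [Matrix.det_adjugate, Fintype.card_fin, Nat.add_one_sub_one, pow_one, h.rep_eq,
      Matrix.det_mul, Matrix.SpecialLinearGroup.det_coe, one_mul, det_hRep] at h1
  have hA : (hRep M ℓ x).adjugate ∈ sigma0 N L := adjugate_mem_sigma0
    (by rw [hRep_ten]; exact dvd_zero _) hco (by rw [det_hRep]; exact hL)
  have e : E.adj x = (⟨_, hA⟩ : sigma0 N L) * (actsIn_gamma0 hNM).incl (r x) := Subtype.ext (by
    simp [Corr.adj, h.rep_eq, Matrix.adjugate_mul_distrib, Matrix.SpecialLinearGroup.coe_inv,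
      Matrix.adjugate_adjugate])
  have h2 := h.class_eq x
  rw [e, map_mul, ← gammaClass_eq δ hNM] at h2
  refine Eq.trans (congrArg (· * _) ?_) h2
  exact congrArg δ (Units.ext (by simp [Matrix.adjugate_fin_two]))

/-- The shift at the index `(1 j; 0 ℓ)` has trivial diamond class. -/
theorem ShiftedCorr.class_coe (h : ShiftedCorr E r) (j : ZMod ℓ) :
    gammaClass δ hNM (r (coeIdx j)) = 1 := by
  obtain ⟨hu, e⟩ := h.class_shift (coeIdx j)
  rw [e, inv_eq_one]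
  refine (congrArg δ (Units.ext ?_)).trans (map_one δ)
  simp [hRep, coeIdx]

/-- The shift at the index `(ℓ 0; 0 1)` has diamond class `δ(ℓ)⁻¹`. -/
theorem ShiftedCorr.class_infty (h : ShiftedCorr E r) (hℓM : ¬ ℓ ∣ M)
    (u : (ZMod N)ˣ) (hu : (u : ZMod N) = (ℓ : ℕ)) :
    gammaClass δ hNM (r (inftyIdx hℓM)) = (δ u)⁻¹ := by
  obtain ⟨hu', e⟩ := h.class_shift (inftyIdx hℓM)
  rw [e]
  congr 2
  refine Units.ext ?_
  simp [hRep, inftyIdx, hu]

theorem ShiftedCorr.slash_rep (h : ShiftedCorr E r) (k : ℤ) (v : ℍ → ℂ) (x : HIdx M ℓ) :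
    v ∣[k] (E.toTransfer h.det_pos).rep x =
      (v ∣[k] (r x : SL(2, ℤ))⁻¹) ∣[k] heckeRep ℓ x.1 := by
  have h1 : (E.toTransfer h.det_pos).rep x =
      (((r x : SL(2, ℤ))⁻¹ : SL(2, ℤ)) : GL (Fin 2) ℝ) * heckeRep ℓ x.1 := by
    rw [← intGL_repMat x.1,
      show (((r x : SL(2, ℤ))⁻¹ : SL(2, ℤ)) : GL (Fin 2) ℝ) =
        Matrix.SpecialLinearGroup.mapGL ℝ (r x : SL(2, ℤ))⁻¹ from rfl, ← intGL_coe, ← intGL_mul]
    exact intGL_congr (h.rep_eq x) (E.det_ne x)
  rw [h1, SlashAction.slash_mul, ← ModularForm.SL_slash]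

/-- The finite representatives act through a root of unity. -/
theorem ShiftedCorr.slash_rep_coe (h : ShiftedCorr E r) {i : ℕ} {φ : gammaH δ hNM →* ℂˣ}
    {v : ℍ → ℂ} (hv : IsTwist (gammaH δ hNM) ((2 * i : ℕ) : ℤ) φ v) (j : ZMod ℓ) :
    ∃ z : ℂˣ, ∀ τ, (v ∣[((2 * i : ℕ) : ℤ)] (E.toTransfer h.det_pos).rep (coeIdx j)) τ =
      (z : ℂ) * ((ℓ : ℂ)⁻¹ * v (heckeMatrix ℓ j.val • τ)) := by
  set el : gammaH δ hNM := toGammaH δ hNM (r (coeIdx j))⁻¹ (by rw [map_inv, h.class_coe, inv_one])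
  refine ⟨φ el, fun τ => ?_⟩
  rw [h.slash_rep]
  change ((v ∣[_] (el : SL(2, ℤ))) ∣[_] heckeMatrix ℓ j.val) τ = _
  rw [ModularForm.slash_heckeMatrix_apply _ (Fact.out : ℓ.Prime).ne_zero, hv.slash el]
  ring

/-- The product over all representatives at a prime not dividing the level. -/
theorem prod_hIdx (hℓM : ¬ ℓ ∣ M) {A : Type*} [CommMonoid A] (f : HIdx M ℓ → A) :
    ∏ x, f x = f (inftyIdx hℓM) * ∏ j : ZMod ℓ, f (coeIdx j) := by
  rw [← (Equiv.subtypeUnivEquiv fun (_ : OnePoint (ZMod ℓ)) _ => hℓM :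
    HIdx M ℓ ≃ OnePoint (ZMod ℓ)).symm.prod_comp f, ES.prod_onePoint]
  rfl

omit [Fact ℓ.Prime] in
theorem coeIdx_bijective_dvd (hℓM : ℓ ∣ M) :
    Function.Bijective (coeIdx (M := M) (ℓ := ℓ)) := by
  refine ⟨fun a b h => by simpa [coeIdx] using h, fun x => ?_⟩
  obtain ⟨x, hx⟩ := x
  induction x using OnePoint.rec with
  | infty => exact absurd hℓM (hx rfl)
  | coe j => exact ⟨j, rfl⟩

/-- The product over all representatives at a prime dividing the level. -/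
theorem prod_hIdx_dvd (hℓM : ℓ ∣ M) {A : Type*} [CommMonoid A] (f : HIdx M ℓ → A) :
    ∏ x, f x = ∏ j : ZMod ℓ, f (coeIdx j) :=
  ((Equiv.ofBijective _ (coeIdx_bijective_dvd hℓM)).prod_comp f).symm

theorem card_hIdx_dvd (hℓM : ℓ ∣ M) : Fintype.card (HIdx M ℓ) = ℓ :=
  (Fintype.card_of_bijective (coeIdx_bijective_dvd hℓM)).symm.trans (ZMod.card ℓ)

/-- The transfer of a form, up to a constant, at a prime not dividing the level. -/
theorem ShiftedCorr.exists_transfer_fun (h : ShiftedCorr E r) (hℓM : ¬ ℓ ∣ M) {i : ℕ}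
    {φ : gammaH δ hNM →* ℂˣ} {v : ℍ → ℂ}
    (hv : IsTwist (gammaH δ hNM) ((2 * i : ℕ) : ℤ) φ v) (C : ℂ) :
    IsTwist (gammaH δ hNM) (((2 * i : ℕ) : ℤ) * ((ℓ : ℤ) + 1)) (E.charTr φ) (fun τ =>
      (C • (v ∣[((2 * i : ℕ) : ℤ)] (r (inftyIdx hℓM) : SL(2, ℤ))⁻¹)) (heckeDiagMatrix ℓ • τ) *
        ∏ j : ZMod ℓ, v (heckeMatrix ℓ j.val • τ)) := by
  have : NeZero ℓ := ⟨(Fact.out : ℓ.Prime).ne_zero⟩
  have hℓC : (ℓ : ℂ) ≠ 0 := Nat.cast_ne_zero.mpr (Fact.out : ℓ.Prime).ne_zero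
  set k : ℤ := ((2 * i : ℕ) : ℤ)
  choose z hz using h.slash_rep_coe hv
  set D := E.toTransfer h.det_pos
  set P : ℂ := ∏ j : ZMod ℓ, ((z j : ℂ) * (ℓ : ℂ)⁻¹)
  set Q : ℂ := (ℓ : ℂ) ^ (k - 1) * P
  have hQ : Q ≠ 0 := mul_ne_zero (zpow_ne_zero _ hℓC)
    (Finset.prod_ne_zero_iff.mpr fun j _ => mul_ne_zero (Units.ne_zero _) (inv_ne_zero hℓC))
  have hu := (hv.transfer D (E.toTransfer_int h.det_pos)).smul (C * Q⁻¹)
  rw [← E.charTr_eq h.det_pos, card_hIdx hℓM] at hu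
  push_cast at hu
  convert hu using 1
  funext τ
  have e1 : (v ∣[k] D.rep (inftyIdx hℓM)) τ = (ℓ : ℂ) ^ (k - 1) *
      (v ∣[k] (r (inftyIdx hℓM) : SL(2, ℤ))⁻¹) (heckeDiagMatrix ℓ • τ) := by
    rw [h.slash_rep]
    exact ModularForm.slash_heckeDiagMatrix_apply k (Fact.out : ℓ.Prime).ne_zero _ τ
  simp only [Pi.smul_apply, smul_eq_mul, transferFun, Finset.prod_apply]
  rw [prod_hIdx hℓM (fun x => (v ∣[k] D.rep x) τ), e1]
  rw [Finset.prod_congr rfl fun j _ => (hz j τ : (v ∣[k] D.rep (coeIdx j)) τ = _)]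
  simp only [← mul_assoc, Finset.prod_mul_distrib]
  rw [show C * Q⁻¹ * (ℓ : ℂ) ^ (k - 1) * (v ∣[k] (r (inftyIdx hℓM) : SL(2, ℤ))⁻¹)
      (heckeDiagMatrix ℓ • τ) * (∏ j : ZMod ℓ, (z j : ℂ)) * (∏ _j : ZMod ℓ, (ℓ : ℂ)⁻¹) =
    C * (Q⁻¹ * Q) * (v ∣[k] (r (inftyIdx hℓM) : SL(2, ℤ))⁻¹) (heckeDiagMatrix ℓ • τ) from by
      simp only [Q, P, Finset.prod_mul_distrib]; ring, inv_mul_cancel₀ hQ, mul_one]

/-- The transfer of a form, up to a constant, at a prime dividing the level. -/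
theorem ShiftedCorr.exists_transfer_fun_dvd (h : ShiftedCorr E r) (hℓM : ℓ ∣ M) {i : ℕ}
    {φ : gammaH δ hNM →* ℂˣ} {v : ℍ → ℂ}
    (hv : IsTwist (gammaH δ hNM) ((2 * i : ℕ) : ℤ) φ v) :
    IsTwist (gammaH δ hNM) (((2 * i : ℕ) : ℤ) * (ℓ : ℤ)) (E.charTr φ) (fun τ =>
      ∏ j : ZMod ℓ, v (heckeMatrix ℓ j.val • τ)) := by
  have : NeZero ℓ := ⟨(Fact.out : ℓ.Prime).ne_zero⟩
  have hℓC : (ℓ : ℂ) ≠ 0 := Nat.cast_ne_zero.mpr (Fact.out : ℓ.Prime).ne_zero
  choose z hz using h.slash_rep_coe hv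
  set D := E.toTransfer h.det_pos
  set P : ℂ := ∏ j : ZMod ℓ, ((z j : ℂ) * (ℓ : ℂ)⁻¹)
  have hP : P ≠ 0 :=
    Finset.prod_ne_zero_iff.mpr fun j _ => mul_ne_zero (Units.ne_zero _) (inv_ne_zero hℓC)
  have hu := (hv.transfer D (E.toTransfer_int h.det_pos)).smul P⁻¹
  rw [← E.charTr_eq h.det_pos, card_hIdx_dvd hℓM] at hu
  convert hu using 1
  funext τ
  simp only [Pi.smul_apply, smul_eq_mul, transferFun, Finset.prod_apply]
  rw [prod_hIdx_dvd hℓM (fun x => (v ∣[((2 * i : ℕ) : ℤ)] D.rep x) τ)]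
  simp only [hz, ← mul_assoc, Finset.prod_mul_distrib]
  rw [mul_assoc P⁻¹ (∏ j : ZMod ℓ, (z j : ℂ)), ← Finset.prod_mul_distrib, inv_mul_cancel₀ hP,
    one_mul]

end Hecke

end FermatAgent.HM
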