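import Fermat.Agent.HM.H1.DiamondPar
import Fermat.Agent.ES.Cong.Congruence

/-!
# Galois and diamond conjugations on parabolic characters of `Γ_H`

`Γ_H` is a good level when `δ (-1) = 1`, so Galois acts on its parabolic characters; conjugation
by `Γ₀(M)` depends only on the diamond class and commutes with this action
(`galChar_conjParChar`).
-/

set_option autoImplicit false

open UpperHalfPlane CongruenceSubgroup
open scoped MatrixGroups ModularForm Manifold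
open FermatAgent.ES (GoodLevel GalRel IsTwist IsParChar parGroup HasExp IsConjTwist conjChar
  AuxLevel GQ galChar autC)

noncomputable section

namespace FermatAgent.HM

variable {Δ : Type*} [CommGroup Δ] {N M : ℕ} [NeZero M]
variable {δ : (ZMod N)ˣ →* Δ} {hNM : N ∣ M}

section Basic

omit [NeZero M]

/-- Related elements of `Γ₀(M)` have the same lower right entry modulo `M`. -/
theorem galRel_lower_right {a : ZMod M} (ha : IsUnit a) {γ γ' : SL(2, ℤ)} (h : GalRel a γ γ') :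
    ((γ' 1 1 : ℤ) : ZMod M) = (γ 1 1 : ℤ) :=
  ha.mul_left_cancel (h.entries.2.2.2.trans (mul_comm _ _))

/-- The diamond class of an element of `Γ₀(M)` depends only on its lower right entry modulo `M`. -/
theorem gammaClass_congr {g g' : SL(2, ℤ)} (hg : g ∈ Gamma0 M) (hg' : g' ∈ Gamma0 M)
    (h : ((g 1 1 : ℤ) : ZMod M) = (g' 1 1 : ℤ)) :
    gammaClass δ hNM ⟨g, hg⟩ = gammaClass δ hNM ⟨g', hg'⟩ := by
  refine congrArg δ (Units.ext ?_)
  rw [coe_lowerRightUnit, coe_lowerRightUnit]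
  have h2 := congrArg (ZMod.castHom hNM (ZMod N)) h
  rw [map_intCast, map_intCast] at h2
  exact h2

/-- `Γ_H` is a good level when `δ (-1) = 1`. -/
theorem goodLevel_gammaH (hneg : δ (-1) = 1) : GoodLevel M (gammaH δ hNM) where
  gamma_le _ hg := (mem_gammaH_iff δ hNM).mpr (gammaClass_eq_one_of_mem_gamma hg)
  stable a ha γ γ' h := by
    have h0 := (ES.goodLevel_Gamma0 M).stable a ha γ γ' h
    rw [mem_gammaH_iff, mem_gammaH_iff]
    constructor
    · rintro ⟨hg, hc⟩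
      exact ⟨h0.mp hg, (gammaClass_congr (h0.mp hg) hg (galRel_lower_right ha h)).trans hc⟩
    · rintro ⟨hg, hc⟩
      exact ⟨h0.mpr hg, (gammaClass_congr (h0.mpr hg) hg (galRel_lower_right ha h).symm).trans hc⟩
  neg_mem := by
    refine (mem_gammaH_iff δ hNM).mpr ⟨neg_one_mem_gamma0 M, ?_⟩
    refine (congrArg δ (Units.ext ?_)).trans hneg
    simp
  T_mem := by
    refine (mem_gammaH_iff δ hNM).mpr ⟨(ES.goodLevel_Gamma0 M).T_mem, ?_⟩
    refine (congrArg δ (Units.ext ?_)).trans (map_one δ)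
    simp [ModularGroup.coe_T]

theorem mem_parGroup_conj (ε : Gamma0 M) {n : ℕ} (φ : parGroup (gammaH δ hNM) n) :
    (φ : gammaH δ hNM →* ℂˣ).comp (conjGammaH ε) ∈ parGroup (gammaH δ hNM) n := by
  refine ⟨MonoidHom.ext fun γ => ?_, fun γ hγ => φ.2.2 (conjGammaH ε γ) ?_⟩
  · simpa using DFunLike.congr_fun φ.2.1 (conjGammaH ε γ)
  · change ((((ε : SL(2, ℤ))⁻¹ * (γ : SL(2, ℤ)) * (ε : SL(2, ℤ))) : SL(2, ℤ)) : Mat2).trace ^ 2 = 4
    rw [trace_conj_SL]
    exact hγ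

/-- Conjugation of parabolic characters by an element of `Γ₀(M)`. -/
def conjParChar (ε : Gamma0 M) {n : ℕ} :
    parGroup (gammaH δ hNM) n →* parGroup (gammaH δ hNM) n where
  toFun φ := ⟨(φ : gammaH δ hNM →* ℂˣ).comp (conjGammaH ε), mem_parGroup_conj ε φ⟩
  map_one' := Subtype.ext (MonoidHom.one_comp _)
  map_mul' _ _ := Subtype.ext (MonoidHom.ext fun _ => rfl)

/-- A conjugated parabolic character is the composite with conjugation on `Γ_H`. -/
theorem coe_conjParChar (ε : Gamma0 M) {n : ℕ} (φ : parGroup (gammaH δ hNM) n) :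
    (conjParChar ε φ : gammaH δ hNM →* ℂˣ) = (φ : gammaH δ hNM →* ℂˣ).comp (conjGammaH ε) := rfl

/-- Conjugation only depends on the diamond class. -/
theorem comp_conjGammaH_congr {A : Type*} [CommMonoid A] (φ : gammaH δ hNM →* A)
    {ε ε' : Gamma0 M} (h : gammaClass δ hNM ε = gammaClass δ hNM ε') :
    φ.comp (conjGammaH ε) = φ.comp (conjGammaH ε') := by
  refine MonoidHom.ext fun γ => ?_
  set el : gammaH δ hNM := toGammaH δ hNM (ε'⁻¹ * ε) (by simp [h])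
  have e : conjGammaH ε γ = el⁻¹ * conjGammaH ε' γ * el := Subtype.ext (by
    simp [conjGammaH, el, toGammaH, mul_assoc])
  simp only [MonoidHom.comp_apply, e, map_mul]
  rw [mul_right_comm, ← map_mul φ, inv_mul_cancel, map_one, one_mul]

/-- Conjugation of parabolic characters depends only on the diamond class. -/
theorem conjParChar_congr {ε ε' : Gamma0 M} (h : gammaClass δ hNM ε = gammaClass δ hNM ε') {n : ℕ}
    (φ : parGroup (gammaH δ hNM) n) : conjParChar ε φ = conjParChar ε' φ :=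
  Subtype.ext (comp_conjGammaH_congr _ h)

/-- A translate of a form with multiplier has the conjugate multiplier. -/
theorem isTwist_slash_conj (ε : Gamma0 M) {k : ℤ} {φ : gammaH δ hNM →* ℂˣ} {v : ℍ → ℂ}
    (hv : IsTwist (gammaH δ hNM) k φ v) :
    IsTwist (gammaH δ hNM) k (φ.comp (conjGammaH ε)) (v ∣[k] (ε : SL(2, ℤ))⁻¹) where
  mdiff := hv.mdiff.slash k _
  slash γ := by
    have e : (ε : SL(2, ℤ))⁻¹ * (γ : SL(2, ℤ)) =
        (conjGammaH ε γ : SL(2, ℤ)) * (ε : SL(2, ℤ))⁻¹ := by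
      simp [conjGammaH, toGammaH, mul_assoc]
    rw [← SlashAction.slash_mul, e, SlashAction.slash_mul, hv.slash,
      show (fun τ => ((φ (conjGammaH ε γ) : ℂˣ) : ℂ) * v τ) =
        ((φ (conjGammaH ε γ) : ℂˣ) : ℂ) • v from rfl, ModularForm.SL_smul_slash]
    rfl
  bdd γ := by
    rw [← SlashAction.slash_mul]
    exact hv.bdd _

end Basic

section Aux

variable {K m : ℕ} [NeZero K] (haux : AuxLevel K m) (hMK : M ∣ K) (hneg : δ (-1) = 1)
  {n : ℕ} [NeZero n]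
include haux hMK hneg
omit [NeZero M]

omit haux hneg in
theorem exists_galRel_gamma0 {a : ℕ} (ha : IsUnit (a : ZMod K)) (ε : Gamma0 M) :
    ∃ ε' : Gamma0 M, GalRel (a : ZMod K) (ε : SL(2, ℤ))⁻¹ (ε' : SL(2, ℤ))⁻¹ ∧
      gammaClass δ hNM ε' = gammaClass δ hNM ε := by
  obtain ⟨g, hg⟩ := GalRel.exists_right ha (ε : SL(2, ℤ))⁻¹
  have haM := ES.isUnit_natCast_of_dvd hMK ha
  have hM := hg.of_dvd hMK
  have hg0 : g ∈ Gamma0 M :=
    ((ES.goodLevel_Gamma0 M).stable _ haM _ _ hM).mp (inv_mem ε.2)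
  refine ⟨⟨g⁻¹, inv_mem hg0⟩, by simpa using hg, ?_⟩
  have h1 := gammaClass_congr (δ := δ) (hNM := hNM) hg0 (inv_mem ε.2) (galRel_lower_right haM hM)
  have h2 : (⟨g⁻¹, inv_mem hg0⟩ : Gamma0 M) = (⟨g, hg0⟩ : Gamma0 M)⁻¹ := rfl
  rw [h2, map_inv, h1, ← map_inv, show (⟨(ε : SL(2, ℤ))⁻¹, inv_mem ε.2⟩ : Gamma0 M) = ε⁻¹ from rfl,
    inv_inv]

/-- The translate of a conjugate form is, up to a constant, the conjugate of the translate. -/
theorem exists_smul_slash_conj {σ : ℂ ≃+* ℂ} {φ φ' : parGroup (gammaH δ hNM) n} {i : ℕ}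
    {v v' : ℍ → ℂ} {c d : PowerSeries ℂ}
    (hv : IsTwist (gammaH δ hNM) ((2 * i : ℕ) : ℤ) (φ : gammaH δ hNM →* ℂˣ) v) (hv0 : v ≠ 0)
    (hv' : IsTwist (gammaH δ hNM) ((2 * i : ℕ) : ℤ) (φ' : gammaH δ hNM →* ℂˣ) v')
    (hc : HasExp K v c) (hc' : HasExp K v' (c.map (σ : ℂ →+* ℂ))) (ε : Gamma0 M)
    (hd : HasExp K (v ∣[((2 * i : ℕ) : ℤ)] (ε : SL(2, ℤ))⁻¹) d) :
    ∃ C : ℂ, C ^ n = 1 ∧
      HasExp K (C • (v' ∣[((2 * i : ℕ) : ℤ)] (ε : SL(2, ℤ))⁻¹)) (d.map (σ : ℂ →+* ℂ)) := by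
  set k : ℤ := ((2 * i : ℕ) : ℤ)
  have hG := goodLevel_gammaH (hNM := hNM) hneg
  obtain ⟨a, ha, hσ⟩ := ES.exists_unit_exponent K σ
  obtain ⟨ε', hrel, hcls⟩ := exists_galRel_gamma0 (δ := δ) (hNM := hNM) hMK ha ε
  obtain ⟨ω, hωn, hω0, hω⟩ := ES.exists_exp_slash_conj haux hMK hG.toGalStable ha hσ (NeZero.pos n)
    φ.2.1 hv hv0 hv'.mdiff hc hc' hrel hd
  -- compare the two translates
  set el : gammaH δ hNM := toGammaH δ hNM (ε⁻¹ * ε') (by simp [hcls])
  have hel : v' ∣[k] (ε : SL(2, ℤ))⁻¹ =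
      (((φ' : gammaH δ hNM →* ℂˣ) el : ℂˣ) : ℂ) • (v' ∣[k] (ε' : SL(2, ℤ))⁻¹) := by
    rw [show (ε : SL(2, ℤ))⁻¹ = (el : SL(2, ℤ)) * (ε' : SL(2, ℤ))⁻¹ by simp [el, toGammaH],
      SlashAction.slash_mul, hv'.slash el,
      show (fun τ => (((φ' : gammaH δ hNM →* ℂˣ) el : ℂˣ) : ℂ) * v' τ) =
        (((φ' : gammaH δ hNM →* ℂˣ) el : ℂˣ) : ℂ) • v' from rfl, ModularForm.SL_smul_slash]
  set z : ℂ := (((φ' : gammaH δ hNM →* ℂˣ) el : ℂˣ) : ℂ) with hz
  have hzn : z ^ n = 1 := by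
    rw [hz, ← Units.val_pow_eq_pow_val, ← MonoidHom.pow_apply, φ'.2.1]; rfl
  have hz0 : z ≠ 0 := Units.ne_zero _
  refine ⟨(ω * z)⁻¹, by rw [inv_pow, mul_pow, hωn, hzn, one_mul, inv_one], ?_⟩
  rw [hel, smul_smul]
  have h := (hω.smul ω⁻¹).congr_fun (g := ω⁻¹ • (v' ∣[k] (ε' : SL(2, ℤ))⁻¹)) fun τ => by simp [k]
  rw [← mul_assoc, ← map_mul, inv_mul_cancel₀ hω0, map_one, one_mul] at h
  rwa [show (ω * z)⁻¹ * z = ω⁻¹ by field_simp]

end Aux

variable (hneg : δ (-1) = 1) {n : ℕ} [NeZero n]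

/-- Galois commutes with the diamond conjugations. -/
theorem conjChar_conjParChar (σ : ℂ ≃+* ℂ) (ε : Gamma0 M) (φ : parGroup (gammaH δ hNM) n) :
    conjChar (goodLevel_gammaH (hNM := hNM) hneg) σ (conjParChar ε φ) =
      conjParChar ε (conjChar (goodLevel_gammaH (hNM := hNM) hneg) σ φ) := by
  set hG := goodLevel_gammaH (hNM := hNM) hneg
  obtain ⟨i, v, v', c, hv, hv0, hv', -, hc, hc'⟩ := ES.conjChar_spec hG σ φ
  set φ' := conjChar hG σ φ
  have hw := isTwist_slash_conj ε hv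
  have hd := ES.hasExp_twist hG (conjParChar ε φ).2.2 hw
  obtain ⟨C, -, hC⟩ := exists_smul_slash_conj (ES.auxLevel12 M) (dvd_mul_left M 12) hneg hv hv0 hv'
    hc hc' ε hd
  exact ES.conjChar_eq hG (IsConjTwist.mk_of hw (ES.slash_ne_zero _ hv0)
    ((isTwist_slash_conj ε hv').smul C) hd hC)

/-- The Galois action on parabolic characters of `Γ_H` commutes with diamond conjugation. -/
theorem galChar_conjParChar (g : GQ) (ε : Gamma0 M) (φ : parGroup (gammaH δ hNM) n) :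
    galChar (goodLevel_gammaH (hNM := hNM) hneg) n g (conjParChar ε φ) =
      conjParChar ε (galChar (goodLevel_gammaH (hNM := hNM) hneg) n g φ) :=
  conjChar_conjParChar hneg (autC g) ε φ

end FermatAgent.HM
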